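import Fermat.Agent.LR.Pairing.Perfect
import Mathlib.GroupTheory.Transfer

/-!
# Functoriality of the intersection pairing

Restriction is adjoint to transfer, and the pairing is invariant under conjugation by integral
matrices of positive determinant.
-/

set_option autoImplicit false

open ModularGroup Matrix
open scoped MatrixGroups

namespace Fermat.Agent.Pairing

open Fermat.Agent.MF.ParHom (genU)
open ModularCurve.Period (parabolicHoms)

variable {Γ Γ' : Subgroup SL(2, ℤ)} {R : Type*} [CommRing R]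

theorem IsPrimitive.map_conj {φ ψ : Additive Γ →+ R} {Φ : Γ → R} (h : IsPrimitive φ ψ Φ)
    (c γ : Γ) (hφ : φ (Additive.ofMul γ) = 0) (hψ : ψ (Additive.ofMul γ) = 0) :
    Φ (c⁻¹ * γ * c) = Φ γ := by
  have h1 : Φ 1 = 0 := by simpa using h 1 1
  have h2 := h c⁻¹ c
  rw [inv_mul_cancel, h1] at h2
  rw [h (c⁻¹ * γ) c, h c⁻¹ γ, ofMul_mul, map_add, hφ, hψ]
  linear_combination -h2

/-- The pairing is invariant under conjugation by a matrix of positive determinant. -/
theorem pairing_conj [Γ.FiniteIndex] [Γ'.FiniteIndex] [HasNegOne Γ] [HasNegOne Γ']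
    [IsAddTorsionFree R] {α : Matrix (Fin 2) (Fin 2) ℤ} {e : Γ ≃* Γ'} (h : IsConjBy α e)
    (a b : parabolicHoms R Γ' R) (a' b' : parabolicHoms R Γ R)
    (ha : ∀ γ : Γ, (a' : Additive Γ →+ R) (Additive.ofMul γ) =
      (a : Additive Γ' →+ R) (Additive.ofMul (e γ)))
    (hb : ∀ γ : Γ, (b' : Additive Γ →+ R) (Additive.ofMul γ) =
      (b : Additive Γ' →+ R) (Additive.ofMul (e γ))) :
    pairing Γ R a' b' = pairing Γ' R a b := by
  obtain ⟨Φ, hΦ⟩ := exists_isPrimitive a b
  rw [pairing_eq_cuspSum a b hΦ, pairing_eq_cuspSum a' b' (Φ := fun γ => Φ (e γ))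
    (fun x y => by simp only [map_mul, hΦ _ _, ha, hb])]
  exact cuspSum_comp h Φ fun c γ hγ =>
    hΦ.map_conj c γ (a.2 γ hγ.trace_sq) (b.2 γ hγ.trace_sq)

/-! ### Restriction and transfer -/

section Cover

variable (hle : Γ' ≤ Γ)

/-- The cocycle element used in the transfer. -/
noncomputable def corElt (γ : Γ) (q : Γ ⧸ Γ'.subgroupOf Γ) : Γ' :=
  ⟨(((γ • q).out⁻¹ * γ * q.out : Γ) : SL(2, ℤ)), by
    refine Subgroup.mem_subgroupOf.mp ?_
    rw [mul_assoc]
    refine QuotientGroup.eq.mp ?_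
    rw [QuotientGroup.out_eq', ← smul_eq_mul, ← MulAction.Quotient.smul_mk,
      QuotientGroup.out_eq']⟩

variable (Γ Γ') in
/-- The transfer of a homomorphism, as a function. -/
noncomputable def corFun [(Γ'.subgroupOf Γ).FiniteIndex] (x : Additive Γ' →+ R) (γ : Γ) : R :=
  letI := Fintype.ofFinite (Γ ⧸ Γ'.subgroupOf Γ)
  ∑ q, x (Additive.ofMul (corElt γ q))

/-- The covering map of coset spaces. -/
noncomputable def cover : SL(2, ℤ) ⧸ Γ' → SL(2, ℤ) ⧸ Γ := Subgroup.quotientMapOfLE hle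

theorem cover_mk (g : SL(2, ℤ)) :
    cover hle (g : SL(2, ℤ) ⧸ Γ') = (g : SL(2, ℤ) ⧸ Γ) := rfl

theorem cover_smul (g : SL(2, ℤ)) (y : SL(2, ℤ) ⧸ Γ') :
    cover hle (g • y) = g • cover hle y := by
  obtain ⟨r, rfl⟩ := QuotientGroup.mk_surjective y
  rfl

variable [Γ'.FiniteIndex]

/-- Summation along the fibres of the covering map. -/
noncomputable def fiberSum (F : SL(2, ℤ) ⧸ Γ' → R) (z : SL(2, ℤ) ⧸ Γ) : R :=
  letI := Fintype.ofFinite (SL(2, ℤ) ⧸ Γ')
  letI : DecidableEq (SL(2, ℤ) ⧸ Γ) := Classical.decEq _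
  ∑ y ∈ Finset.univ.filter (fun y => cover hle y = z), F y

theorem fiberSum_comp_smul (g : SL(2, ℤ)) (F : SL(2, ℤ) ⧸ Γ' → R) (z : SL(2, ℤ) ⧸ Γ) :
    fiberSum hle (fun y => F (g • y)) z = fiberSum hle F (g • z) := by
  classical
  letI := Fintype.ofFinite (SL(2, ℤ) ⧸ Γ')
  exact Finset.sum_equiv (MulAction.toPerm g) (fun y => by simp [cover_smul]) (fun y _ => rfl)

theorem fiberSum_add (F G : SL(2, ℤ) ⧸ Γ' → R) (z : SL(2, ℤ) ⧸ Γ) :
    fiberSum hle (fun y => F y + G y) z = fiberSum hle F z + fiberSum hle G z :=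
  Finset.sum_add_distrib

theorem fiberSum_sub (F G : SL(2, ℤ) ⧸ Γ' → R) (z : SL(2, ℤ) ⧸ Γ) :
    fiberSum hle (fun y => F y - G y) z = fiberSum hle F z - fiberSum hle G z :=
  Finset.sum_sub_distrib _ _

theorem isCocycleFor_comp_cover {φ : Additive Γ →+ R} {φ' : Additive Γ' →+ R}
    {κ : SL(2, ℤ) → (SL(2, ℤ) ⧸ Γ) → R} (h : IsCocycleFor φ κ)
    (hφ : ∀ γ : Γ', φ' (Additive.ofMul γ) = φ (Additive.ofMul ⟨γ, hle γ.2⟩)) :
    IsCocycleFor φ' fun g y => κ g (cover hle y) where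
  coc g g' y := by simp only []; rw [h.coc, cover_smul]
  base γ := by
    rw [hφ, ← h.base]
    rfl
  genU_apply y := h.genU_apply _

theorem isCocycleFor_fiberSum [(Γ'.subgroupOf Γ).FiniteIndex] {c : Additive Γ →+ R}
    {x : Additive Γ' →+ R} {ν : SL(2, ℤ) → (SL(2, ℤ) ⧸ Γ') → R} (h : IsCocycleFor x ν)
    (hc : ∀ γ : Γ, c (Additive.ofMul γ) = corFun Γ Γ' x γ) :
    IsCocycleFor c fun g z => fiberSum hle (ν g) z where
  coc g g' z := by
    simp only []
    rw [← fiberSum_comp_smul, ← fiberSum_add]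
    exact Finset.sum_congr rfl fun y _ => h.coc g g' y
  base γ := by
    classical
    letI := Fintype.ofFinite (SL(2, ℤ) ⧸ Γ')
    letI := Fintype.ofFinite (Γ ⧸ Γ'.subgroupOf Γ)
    let F : Γ ⧸ Γ'.subgroupOf Γ → R := fun q => ν (q.out : SL(2, ℤ)) (baseCoset Γ')
    have e : fiberSum hle (ν γ) (baseCoset Γ) =
        ∑ q : Γ ⧸ Γ'.subgroupOf Γ, ν γ ((q.out : SL(2, ℤ)) : SL(2, ℤ) ⧸ Γ') := by
      symm
      refine Finset.sum_bij (fun q _ => ((q.out : SL(2, ℤ)) : SL(2, ℤ) ⧸ Γ')) ?_ ?_ ?_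
        (fun _ _ => rfl)
      · intro q _
        simp only [Finset.mem_filter, Finset.mem_univ, true_and, cover_mk]
        rw [← coe_smul_baseCoset, mem_smul_baseCoset]
      · intro q _ q' _ e
        rw [← QuotientGroup.out_eq' q, ← QuotientGroup.out_eq' q']
        rw [QuotientGroup.eq] at e ⊢
        exact Subgroup.mem_subgroupOf.mpr (by simpa using e)
      · intro y hy
        simp only [Finset.mem_filter, Finset.mem_univ, true_and] at hy
        obtain ⟨r, rfl⟩ := QuotientGroup.mk_surjective y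
        rw [cover_mk, baseCoset, QuotientGroup.eq, mul_one, inv_mem_iff] at hy
        refine ⟨((⟨r, hy⟩ : Γ) : Γ ⧸ Γ'.subgroupOf Γ), Finset.mem_univ _, ?_⟩
        rw [QuotientGroup.eq]
        have := QuotientGroup.eq.mp
          (QuotientGroup.out_eq' ((⟨r, hy⟩ : Γ) : Γ ⧸ Γ'.subgroupOf Γ))
        simpa using Subgroup.mem_subgroupOf.mp this
    have hterm : ∀ q : Γ ⧸ Γ'.subgroupOf Γ, ν γ ((q.out : SL(2, ℤ)) : SL(2, ℤ) ⧸ Γ') =
        x (Additive.ofMul (corElt γ q)) + F (γ • q) - F q := by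
      intro q
      have h1 := h.coc γ q.out (baseCoset Γ')
      have h2 := h.coc ((γ • q).out : Γ) (corElt γ q) (baseCoset Γ')
      have hm : ((γ • q).out : SL(2, ℤ)) * (corElt γ q : SL(2, ℤ)) =
          (γ : SL(2, ℤ)) * (q.out : SL(2, ℤ)) := by
        simp only [corElt, Subgroup.coe_mul, Subgroup.coe_inv]
        group
      rw [coe_smul_baseCoset] at h1
      rw [mem_smul_baseCoset, h.base, hm] at h2
      simp only [F]
      linear_combination h2 - h1
    show fiberSum hle (ν γ) (baseCoset Γ) = _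
    rw [e, hc, corFun]
    simp only [hterm, Finset.sum_sub_distrib, Finset.sum_add_distrib]
    rw [show ∑ q, F (γ • q) = ∑ q, F q from Equiv.sum_comp (MulAction.toPerm γ) F]
    ring
  genU_apply z := Finset.sum_eq_zero fun y _ => h.genU_apply y

variable [Γ.FiniteIndex] [HasNegOne Γ] [HasNegOne Γ'] [IsAddTorsionFree R]
  [(Γ'.subgroupOf Γ).FiniteIndex]

/-- Restriction is adjoint to transfer. -/
theorem pairing_res_cor (a c : parabolicHoms R Γ R) (a' x : parabolicHoms R Γ' R)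
    (ha : ∀ γ : Γ', (a' : Additive Γ' →+ R) (Additive.ofMul γ) =
      (a : Additive Γ →+ R) (Additive.ofMul ⟨γ, hle γ.2⟩))
    (hc : ∀ γ : Γ, (c : Additive Γ →+ R) (Additive.ofMul γ) =
      corFun Γ Γ' (x : Additive Γ' →+ R) γ) :
    pairing Γ' R a' x = pairing Γ R a c := by
  classical
  letI := Fintype.ofFinite (SL(2, ℤ) ⧸ Γ')
  letI := Fintype.ofFinite (SL(2, ℤ) ⧸ Γ)
  obtain ⟨κ, hκ⟩ := exists_isCocycleFor (a : Additive Γ →+ R)
  obtain ⟨ν, hν⟩ := exists_isCocycleFor (x : Additive Γ' →+ R)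
  obtain ⟨b, hb⟩ := hν.exists_b
  obtain ⟨B, hB⟩ := hν.exists_B x.2
  have hν' := isCocycleFor_fiberSum hle hν hc
  rw [pairing_eq_symbolPairing a' x (isCocycleFor_comp_cover hle hκ ha) hν hb hB,
    pairing_eq_symbolPairing a c hκ hν' (b := fiberSum hle b) (B := fiberSum hle B)
      (fun z => by
        rw [← fiberSum_comp_smul, ← fiberSum_sub]
        exact Finset.sum_congr rfl fun y _ => hb y)
      (fun z => by
        rw [← fiberSum_comp_smul, ← fiberSum_sub]
        exact Finset.sum_congr rfl fun y _ => hB y)]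
  show ∑ y, κ S (cover hle y) * (b y + B (genU⁻¹ • y)) =
    ∑ z, κ S z * (fiberSum hle b z + fiberSum hle B (genU⁻¹ • z))
  rw [← Finset.sum_fiberwise Finset.univ (cover hle)]
  refine Finset.sum_congr rfl fun z _ => ?_
  rw [← fiberSum_comp_smul, ← fiberSum_add, fiberSum, Finset.mul_sum]
  refine Finset.sum_congr (by ext; simp) fun y hy => ?_
  simp only [Finset.mem_filter] at hy
  rw [hy.2]

end Cover

/-- Mathlib's transfer is `corFun`. -/
theorem transfer_eq_corFun [(Γ'.subgroupOf Γ).FiniteIndex] (hle : Γ' ≤ Γ)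
    (x : Additive Γ' →+ R) (γ : Γ) :
    Multiplicative.toAdd (MonoidHom.transfer
      ((AddMonoidHom.toMultiplicativeRight x).comp
        (Subgroup.subgroupOfEquivOfLe hle).toMonoidHom) γ) = corFun Γ Γ' x γ := by
  classical
  letI := (Γ'.subgroupOf Γ).fintypeQuotientOfFiniteIndex
  let T : (Γ'.subgroupOf Γ).LeftTransversal :=
    ⟨Set.range (fun q : Γ ⧸ Γ'.subgroupOf Γ => q.out),
      Subgroup.isComplement_range_left QuotientGroup.out_eq'⟩
  have hT : ∀ q, ((T.2.leftQuotientEquiv q : _) : Γ) = q.out :=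
    Subgroup.IsComplement.leftQuotientEquiv_apply QuotientGroup.out_eq'
  rw [MonoidHom.transfer_def _ T, Subgroup.leftTransversals.diff, toAdd_prod, corFun]
  refine (Equiv.sum_comp (MulAction.toPerm γ) _).symm.trans ?_
  refine Finset.sum_congr (by ext; simp) fun q _ => ?_
  show x (Additive.ofMul _) = x (Additive.ofMul _)
  congr 2
  apply Subtype.ext
  simp only [Subgroup.smul_apply_eq_smul_apply_inv_smul, MulAction.toPerm_apply, inv_smul_smul,
    hT, smul_eq_mul, corElt, mul_assoc]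
  rfl

end Fermat.Agent.Pairing
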