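import Fermat.Agent.LR.Pairing.Functorial
import Fermat.Agent.LR.Degeneracy

/-!
# The pairing on `Hom_par(Γ₀(N), ℤ)`: degeneracy maps and Atkin-Lehner involutions
-/

set_option autoImplicit false

open ModularGroup Matrix CongruenceSubgroup
open scoped MatrixGroups

namespace Fermat.Agent.Pairing

open Fermat.Agent.LR

/-- The pairing on `HPar N`. -/
noncomputable abbrev pairingGamma0 (N : ℕ) [NeZero N] : HPar N →ₗ[ℤ] HPar N →ₗ[ℤ] ℤ :=
  pairing (Gamma0 N) ℤ

theorem pairingGamma0_res_cor (N q : ℕ) [NeZero N] [NeZero q] (a c : HPar N)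
    (a' x : HPar (N * q)) (ha : (a' : Hom1 (N * q) ℤ) = res N q (a : Hom1 N ℤ))
    (hc : (c : Hom1 N ℤ) = cor N q (x : Hom1 (N * q) ℤ)) :
    pairingGamma0 (N * q) a' x = pairingGamma0 N a c := by
  refine pairing_res_cor (gamma0_mul_le N q) a c a' x (fun γ => ?_) (fun γ => ?_)
  · rw [ha]; rfl
  · rw [hc, ← transfer_eq_corFun (gamma0_mul_le N q)]
    rfl

/-- The matrix of the Atkin-Lehner element `W_q`. -/
def atkinMat (N q : ℕ) (h : q.Coprime N) : Matrix (Fin 2) (Fin 2) ℤ :=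
  (atkinAuxSL N q h).1 * !![(q : ℤ), 0; 0, 1]

theorem det_atkinMat (N q : ℕ) (h : q.Coprime N) : (atkinMat N q h).det = q := by
  rw [atkinMat, Matrix.det_mul, (atkinAuxSL N q h).2, Matrix.det_fin_two_of]
  ring

theorem atkinGamma0_mul_atkinMat (N q : ℕ) (h : q.Coprime N) (γ : Gamma0 (N * q)) :
    ((atkinGamma0 N q h γ : SL(2, ℤ)) : Matrix (Fin 2) (Fin 2) ℤ) * atkinMat N q h =
      atkinMat N q h * (γ : SL(2, ℤ)) := by
  have e : (atkinGamma0 N q h γ : SL(2, ℤ)) * atkinAuxSL N q h =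
      atkinAuxSL N q h * deltaSL N q γ := by
    show atkinAuxSL N q h * deltaSL N q γ * (atkinAuxSL N q h)⁻¹ * atkinAuxSL N q h = _
    group
  have eD : (deltaSL N q γ).1 = !![(γ : SL(2, ℤ)) 0 0, q * (γ : SL(2, ℤ)) 0 1;
      (γ : SL(2, ℤ)) 1 0 / q, (γ : SL(2, ℤ)) 1 1] := rfl
  have e1 : (deltaSL N q γ).1 * !![(q : ℤ), 0; 0, 1] =
      !![(q : ℤ), 0; 0, 1] * (γ : SL(2, ℤ)).1 := by
    rw [eD]
    have hc := lowerLeft_eq_mul N q γ
    ext i j
    fin_cases i <;> fin_cases j <;> simp [Matrix.mul_apply, Fin.sum_univ_two]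
    · ring
    · linear_combination -hc
  rw [atkinMat, ← Matrix.mul_assoc, ← Matrix.SpecialLinearGroup.coe_mul, e,
    Matrix.SpecialLinearGroup.coe_mul, Matrix.mul_assoc, e1, Matrix.mul_assoc]

theorem atkinGamma0_bijective (N q : ℕ) [NeZero q] (h : q.Coprime N) :
    Function.Bijective (atkinGamma0 N q h) := by
  set x : ℤ := q.gcdA N with hx
  set B : ℤ := q.gcdB N with hB
  have hdet : (q : ℤ) * x + N * B = 1 := by
    have e : ((q.gcd N : ℕ) : ℤ) = q * q.gcdA N + N * q.gcdB N := Nat.gcd_eq_gcd_ab q N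
    rw [h.gcd_eq_one] at e
    push_cast at e
    exact e.symm
  -- `W² = q V` with `V ∈ Γ₀(Nq)`
  let V : Gamma0 (N * q) :=
    ⟨⟨!![x ^ 2 * q - B * N, -B * (x + 1); (N : ℤ) * q * (x + 1), (q : ℤ) - B * N], by
      rw [Matrix.det_fin_two_of]
      linear_combination ((q : ℤ) * x + N * B + 1) * hdet⟩, by
      rw [Gamma0_mem, ZMod.intCast_zmod_eq_zero_iff_dvd]
      exact ⟨x + 1, by simp⟩⟩
  have hW : atkinMat N q h * atkinMat N q h = (q : ℤ) • ((V : SL(2, ℤ)).1) := by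
    rw [atkinMat, atkinAuxSL]
    ext i j
    fin_cases i <;> fin_cases j <;>
      simp [V, Matrix.mul_apply, Fin.sum_univ_two, ← hx, ← hB] <;> ring
  have key : ∀ γ, atkinGamma0 N q h (atkinGamma0 N q h γ) = V * γ * V⁻¹ := by
    intro γ
    rw [eq_mul_inv_iff_mul_eq]
    apply Subtype.ext
    apply Subtype.ext
    simp only [Subgroup.coe_mul, Matrix.SpecialLinearGroup.coe_mul]
    have h2 : ((atkinGamma0 N q h (atkinGamma0 N q h γ) : SL(2, ℤ)) :
        Matrix (Fin 2) (Fin 2) ℤ) * (atkinMat N q h * atkinMat N q h) =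
        (atkinMat N q h * atkinMat N q h) * (γ : SL(2, ℤ)) := by
      rw [← Matrix.mul_assoc, atkinGamma0_mul_atkinMat, Matrix.mul_assoc,
        atkinGamma0_mul_atkinMat, Matrix.mul_assoc]
    rw [hW, Matrix.mul_smul, Matrix.smul_mul] at h2
    exact smul_right_injective _ (Int.natCast_ne_zero.mpr (NeZero.ne q)) h2
  constructor
  · intro a b hab
    have := congrArg (atkinGamma0 N q h) hab
    rw [key, key] at this
    simpa using this
  · intro γ
    exact ⟨atkinGamma0 N q h (V⁻¹ * γ * V), by rw [key]; group⟩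

theorem isConjBy_atkinGamma0 (N q : ℕ) [NeZero q] (h : q.Coprime N) :
    IsConjBy (atkinMat N q h)
      (MulEquiv.ofBijective (atkinGamma0 N q h) (atkinGamma0_bijective N q h)) :=
  ⟨by rw [det_atkinMat]; exact_mod_cast Nat.pos_of_ne_zero (NeZero.ne q),
    atkinGamma0_mul_atkinMat N q h⟩

theorem atkin_mem_hPar (N q : ℕ) [NeZero q] (h : q.Coprime N) (x : HPar (N * q)) :
    atkin N q h (x : Hom1 (N * q) ℤ) ∈ HPar (N * q) :=
  (isConjBy_atkinGamma0 N q h).mem_parabolicHoms x.2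

theorem pairingGamma0_atkin (N q : ℕ) [NeZero N] [NeZero q] (h : q.Coprime N)
    (x y x' y' : HPar (N * q)) (hx : (x' : Hom1 (N * q) ℤ) = atkin N q h (x : Hom1 (N * q) ℤ))
    (hy : (y' : Hom1 (N * q) ℤ) = atkin N q h (y : Hom1 (N * q) ℤ)) :
    pairingGamma0 (N * q) x' y' = pairingGamma0 (N * q) x y :=
  pairing_conj (isConjBy_atkinGamma0 N q h) x y x' y' (fun γ => by rw [hx]; rfl)
    (fun γ => by rw [hy]; rfl)

theorem exists_eq_smul_of_forall_dvd_gamma0 (N : ℕ) [NeZero N] {p : ℤ} (hp : p ≠ 0) (a : HPar N)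
    (h : ∀ b, p ∣ pairingGamma0 N a b) : ∃ a', a = p • a' := by
  obtain ⟨a', ha'⟩ := exists_eq_smul_of_forall_dvd hp a h
  exact ⟨a', by rw [ha']⟩

/-! ### General coefficients -/

theorem trace_sq_pow {g : SL(2, ℤ)} (hg : (g : Matrix (Fin 2) (Fin 2) ℤ).trace ^ 2 = 4) (n : ℕ) :
    ((g ^ n : SL(2, ℤ)) : Matrix (Fin 2) (Fin 2) ℤ).trace ^ 2 = 4 := by
  obtain ⟨h, m, e⟩ := MF.ParHom.exists_conj_T_zpow hg
  have key : ((((h * T ^ m * h⁻¹) ^ n : SL(2, ℤ))) : Matrix (Fin 2) (Fin 2) ℤ).trace = 2 := by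
    rw [conj_pow, ← zpow_natCast (T ^ m), ← _root_.zpow_mul,
      show h * T ^ (m * (n : ℤ)) * h⁻¹ = h⁻¹⁻¹ * T ^ (m * (n : ℤ)) * h⁻¹ by rw [inv_inv],
      trace_conj, coe_T_zpow]
    simp [Matrix.trace_fin_two]
  rcases e with rfl | rfl
  · rw [key]; norm_num
  · rcases Nat.even_or_odd n with hn | hn
    · rw [hn.neg_pow, key]; norm_num
    · rw [hn.neg_pow, Matrix.SpecialLinearGroup.coe_neg, Matrix.trace_neg, key]; norm_num

variable {R : Type*} [CommRing R]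

theorem res_mem_parabolicHoms (N q : ℕ) (a : ModularCurve.Period.parabolicHoms R (Gamma0 N) R) :
    res N q (a : Hom1 N R) ∈ ModularCurve.Period.parabolicHoms R (Gamma0 (N * q)) R :=
  fun γ hγ => a.2 (inclGamma0 N q γ) hγ

theorem res₂_mem_parabolicHoms (N q : ℕ) (a : ModularCurve.Period.parabolicHoms R (Gamma0 N) R) :
    res₂ N q (a : Hom1 N R) ∈ ModularCurve.Period.parabolicHoms R (Gamma0 (N * q)) R := by
  intro γ hγ
  refine a.2 (deltaGamma0 N q γ) ?_
  have e : ((deltaGamma0 N q γ : SL(2, ℤ)) : Matrix (Fin 2) (Fin 2) ℤ).trace =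
      ((γ : SL(2, ℤ)) : Matrix (Fin 2) (Fin 2) ℤ).trace := by
    show ((deltaSL N q γ : SL(2, ℤ)) : Matrix (Fin 2) (Fin 2) ℤ).trace = _
    simp [deltaSL, Matrix.trace_fin_two]
  exact (congrArg (· ^ 2) e).trans hγ

theorem cor_mem_parabolicHoms (N q : ℕ) [NeZero N] [NeZero q]
    (x : ModularCurve.Period.parabolicHoms R (Gamma0 (N * q)) R) :
    cor N q (x : Hom1 (N * q) R) ∈ ModularCurve.Period.parabolicHoms R (Gamma0 N) R := by
  classical
  intro γ hγ
  letI := Fintype.ofFinite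
    (Quotient (MulAction.orbitRel (Subgroup.zpowers γ) (Gamma0 N ⧸ levelSub N q)))
  show Multiplicative.toAdd (MonoidHom.transfer (levelSubHom N q (x : Hom1 (N * q) R)) γ) = 0
  rw [MonoidHom.transfer_eq_prod_quotient_orbitRel_zpowers_quot, toAdd_prod]
  refine Finset.sum_eq_zero fun o _ => x.2 _ ?_
  show ((((o.out.out : Gamma0 N)⁻¹ * γ ^ Function.minimalPeriod (γ • ·) o.out *
    o.out.out : Gamma0 N) : SL(2, ℤ)) : Matrix (Fin 2) (Fin 2) ℤ).trace ^ 2 = 4
  rw [Subgroup.coe_mul, Subgroup.coe_mul, Subgroup.coe_inv, Subgroup.coe_pow, trace_conj]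
  exact trace_sq_pow hγ _

theorem pairing_res_cor_gamma0 [IsAddTorsionFree R] (N q : ℕ) [NeZero N] [NeZero q]
    (a c : ModularCurve.Period.parabolicHoms R (Gamma0 N) R)
    (a' x : ModularCurve.Period.parabolicHoms R (Gamma0 (N * q)) R)
    (ha : (a' : Hom1 (N * q) R) = res N q (a : Hom1 N R))
    (hc : (c : Hom1 N R) = cor N q (x : Hom1 (N * q) R)) :
    pairing (Gamma0 (N * q)) R a' x = pairing (Gamma0 N) R a c := by
  refine pairing_res_cor (gamma0_mul_le N q) a c a' x (fun γ => ?_) (fun γ => ?_)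
  · rw [ha]; rfl
  · rw [hc, ← transfer_eq_corFun (gamma0_mul_le N q)]
    rfl

end Fermat.Agent.Pairing
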