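import Mathlib.NumberTheory.ModularForms.CongruenceSubgroups
import Mathlib.Algebra.Group.Subgroup.Finite
import Fermat.Prelude.Def_ModularCurve_PeriodMap

/-!
# Cup primitives and sums over cusps for finite index subgroups of `SL(2, ℤ)`

For homomorphisms `φ ψ : Γ → R` killing the parabolic elements, a primitive is a function
`Φ : Γ → R` with `Φ (a b) = Φ a + Φ b + φ a * ψ b`. The intersection
pairing of `φ` and `ψ` is the sum of `Φ` over positive generators of the cusp stabilisers.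
This file contains the intrinsic part: invariance of cusp sums under conjugation.
-/

set_option autoImplicit false

open ModularGroup Matrix
open scoped MatrixGroups

namespace Fermat.Agent.Pairing


/-- The subgroup contains `-1`. -/
class HasNegOne (Γ : Subgroup SL(2, ℤ)) : Prop where
  neg_one_mem : (-1 : SL(2, ℤ)) ∈ Γ

instance hasNegOne_Gamma0 (N : ℕ) : HasNegOne (CongruenceSubgroup.Gamma0 N) :=
  ⟨by simp [CongruenceSubgroup.Gamma0_mem]⟩

instance hasNegOne_inf (Γ Γ' : Subgroup SL(2, ℤ)) [h : HasNegOne Γ] [h' : HasNegOne Γ'] :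
    HasNegOne (Γ ⊓ Γ') :=
  ⟨h.neg_one_mem, h'.neg_one_mem⟩

section Defs

variable {Γ : Subgroup SL(2, ℤ)} {R : Type*} [CommRing R]

/-- `Φ` is a primitive of the cup product of `φ` and `ψ`. -/
def IsPrimitive (φ ψ : Additive Γ →+ R) (Φ : Γ → R) : Prop :=
  ∀ a b, Φ (a * b) = Φ a + Φ b + φ (Additive.ofMul a) * ψ (Additive.ofMul b)

end Defs

variable {Γ : Subgroup SL(2, ℤ)}

theorem inv_conj_pow {G : Type*} [Group G] (a b : G) (n : ℕ) :
    (a⁻¹ * b * a) ^ n = a⁻¹ * b ^ n * a := by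
  simpa using (conj_pow (a := a⁻¹) (b := b) (i := n))

theorem inv_conj_conj {G : Type*} [Group G] (a b c : G) :
    a⁻¹ * (b⁻¹ * c * b) * a = (b * a)⁻¹ * c * (b * a) := by
  group

/-! ### Positive unipotent elements -/

/-- `g` is conjugate to a positive translation. -/
def IsPosUnip (g : SL(2, ℤ)) : Prop := ∃ (h : SL(2, ℤ)) (n : ℕ), 0 < n ∧ g = h⁻¹ * T ^ n * h

/-- The quadratic form `v ↦ v ∧ g v`. -/
def wedgeForm (g : Matrix (Fin 2) (Fin 2) ℤ) (x y : ℤ) : ℤ :=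
  g 1 0 * x ^ 2 + (g 1 1 - g 0 0) * x * y - g 0 1 * y ^ 2

theorem wedgeForm_conj (g g' α : Matrix (Fin 2) (Fin 2) ℤ) (h : g' * α = α * g) (x y : ℤ) :
    wedgeForm g' (α 0 0 * x + α 0 1 * y) (α 1 0 * x + α 1 1 * y)
      = α.det * wedgeForm g x y := by
  have h00 := congrFun (congrFun h 0) 0
  have h01 := congrFun (congrFun h 0) 1
  have h10 := congrFun (congrFun h 1) 0
  have h11 := congrFun (congrFun h 1) 1
  simp only [Matrix.mul_apply, Fin.sum_univ_two] at h00 h01 h10 h11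
  simp only [wedgeForm, Matrix.det_fin_two]
  linear_combination (α 0 0 * x + α 0 1 * y) * (x * h10 + y * h11)
    - (α 1 0 * x + α 1 1 * y) * (x * h00 + y * h01)

theorem coe_T_pow (n : ℕ) : (T ^ n : SL(2, ℤ)).1 = !![1, (n : ℤ); 0, 1] := by
  rw [← zpow_natCast, coe_T_zpow]

theorem trace_conj (h g : SL(2, ℤ)) :
    ((h⁻¹ * g * h : SL(2, ℤ)) : Matrix (Fin 2) (Fin 2) ℤ).trace
      = (g : Matrix (Fin 2) (Fin 2) ℤ).trace := by
  rw [Matrix.SpecialLinearGroup.coe_mul, Matrix.trace_mul_comm,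
    ← Matrix.SpecialLinearGroup.coe_mul]
  congr 2
  group

theorem IsPosUnip.trace_eq {g : SL(2, ℤ)} (hg : IsPosUnip g) :
    (g : Matrix (Fin 2) (Fin 2) ℤ).trace = 2 := by
  obtain ⟨h, n, -, rfl⟩ := hg
  rw [trace_conj, coe_T_pow]
  simp [Matrix.trace_fin_two]

theorem IsPosUnip.trace_sq {g : SL(2, ℤ)} (hg : IsPosUnip g) :
    (g : Matrix (Fin 2) (Fin 2) ℤ).trace ^ 2 = 4 := by
  rw [hg.trace_eq]
  norm_num

theorem IsPosUnip.ne_one {g : SL(2, ℤ)} (hg : IsPosUnip g) : g ≠ 1 := by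
  obtain ⟨h, n, hn, rfl⟩ := hg
  intro e
  have hT : (T ^ n : SL(2, ℤ)) = 1 := by
    rw [mul_assoc, inv_mul_eq_one] at e
    exact mul_eq_right.mp e.symm
  have := congrFun (congrFun (congrArg Subtype.val hT) 0) 1
  rw [coe_T_pow] at this
  simp at this
  omega

theorem IsPosUnip.wedgeForm_nonpos {g : SL(2, ℤ)} (hg : IsPosUnip g) (x y : ℤ) :
    wedgeForm (g : Matrix (Fin 2) (Fin 2) ℤ) x y ≤ 0 := by
  obtain ⟨h, n, hn, rfl⟩ := hg
  have hc : (T ^ n : SL(2, ℤ)).1 * h.1 = h.1 * (h⁻¹ * T ^ n * h : SL(2, ℤ)).1 := by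
    rw [← Matrix.SpecialLinearGroup.coe_mul, ← Matrix.SpecialLinearGroup.coe_mul]
    congr 1
    group
  have := wedgeForm_conj _ _ _ hc x y
  rw [h.2, one_mul] at this
  rw [← this, coe_T_pow]
  simp only [wedgeForm, Matrix.of_apply, Matrix.cons_val', Matrix.cons_val_zero,
    Matrix.cons_val_one, Matrix.cons_val_fin_one]
  nlinarith [mul_self_nonneg (h.1 1 0 * x + h.1 1 1 * y)]

theorem exists_conj_T_zpow_of_trace_eq_two (g : SL(2, ℤ))
    (ht : (g : Matrix (Fin 2) (Fin 2) ℤ).trace = 2) :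
    ∃ (h : SL(2, ℤ)) (n : ℤ), g = h⁻¹ * T ^ n * h := by
  have hdet := g.2
  rw [Matrix.det_fin_two] at hdet
  rw [Matrix.trace_fin_two] at ht
  set a := g.1 0 0 with ha
  set b := g.1 0 1 with hb
  set c := g.1 1 0 with hc'
  set e := g.1 1 1 with he
  have he2 : e = 2 - a := by linarith
  by_cases hc : c = 0
  · have h00 : g.1 0 0 = 1 := by
      rw [hc, mul_zero, sub_zero] at hdet
      have h2 : (g.1 0 0 - 1) ^ 2 = 0 := by linear_combination g.1 0 0 * ht - hdet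
      have := pow_eq_zero_iff (n := 2) (by norm_num) |>.mp h2
      linarith
    refine ⟨1, g.1 0 1, ?_⟩
    rw [inv_one, one_mul, mul_one]
    apply Subtype.ext
    rw [coe_T_zpow]
    ext i j
    fin_cases i <;> fin_cases j <;>
      simp [h00, ← ha, ← hb, ← hc', ← he, hc]
    · linarith [h00, ha]
  · obtain ⟨d, m, k, hd, hmk, hm, hk⟩ :=
      Int.exists_gcd_one' (m := a - 1) (n := c)
        (Int.gcd_pos_iff.mpr (Or.inr hc))
    obtain ⟨u, v, huv⟩ := Int.isCoprime_iff_gcd_eq_one.mpr hmk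
    have hdet' : (a - 1) * (a - 1) + b * c = 0 := by
      rw [he2] at hdet; linear_combination -hdet
    -- the fixed vector `(m, k)` is moved to `(1, 0)`
    have hfix0 : (a - 1) * m + b * k = 0 := by
      apply mul_right_cancel₀ (b := (d : ℤ)) (by exact_mod_cast hd.ne')
      linear_combination hdet' - (a - 1) * hm - b * hk
    have hfix1 : c * m + (1 - a) * k = 0 := by
      apply mul_right_cancel₀ (b := (d : ℤ)) (by exact_mod_cast hd.ne')
      linear_combination -c * hm + (a - 1) * hk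
    let h : SL(2, ℤ) := ⟨!![u, v; -k, m], by rw [Matrix.det_fin_two_of]; linarith⟩
    let n : ℤ := u * (a * -v + b * u) + v * (c * -v + e * u)
    refine ⟨h, n, ?_⟩
    rw [mul_assoc, eq_inv_mul_iff_mul_eq]
    apply Subtype.ext
    rw [Matrix.SpecialLinearGroup.coe_mul, Matrix.SpecialLinearGroup.coe_mul, coe_T_zpow]
    ext i j
    fin_cases i <;> fin_cases j <;>
      simp [h, n, Matrix.mul_apply, Fin.sum_univ_two, ← ha, ← hb, ← hc', ← he, he2]
    · linear_combination u ^ 2 * hfix0 + u * v * hfix1 - (u * (a - 1) + v * c) * huv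
    · linear_combination u * v * hfix0 + v ^ 2 * hfix1 + (v * (a - 1) - u * b) * huv
    · linear_combination hfix1
    · linear_combination -hfix0

theorem isPosUnip_of_wedgeForm_nonpos {g : SL(2, ℤ)}
    (ht : (g : Matrix (Fin 2) (Fin 2) ℤ).trace = 2) (hne : g ≠ 1)
    (hq : ∀ x y : ℤ, wedgeForm (g : Matrix (Fin 2) (Fin 2) ℤ) x y ≤ 0) : IsPosUnip g := by
  obtain ⟨h, n, rfl⟩ := exists_conj_T_zpow_of_trace_eq_two g ht
  rcases lt_trichotomy n 0 with hn | rfl | hn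
  · exfalso
    have hc : (T ^ n : SL(2, ℤ)).1 * h.1 = h.1 * (h⁻¹ * T ^ n * h : SL(2, ℤ)).1 := by
      rw [← Matrix.SpecialLinearGroup.coe_mul, ← Matrix.SpecialLinearGroup.coe_mul]
      congr 1
      group
    have hdet := h.2
    rw [Matrix.det_fin_two] at hdet
    have := wedgeForm_conj _ _ _ hc (-h.1 0 1) (h.1 0 0)
    rw [h.2, one_mul] at this
    have hle := hq (-h.1 0 1) (h.1 0 0)
    rw [← this, coe_T_zpow] at hle
    simp [wedgeForm] at hle
    have h1 : -(h.1 1 0 * h.1 0 1) + h.1 1 1 * h.1 0 0 = 1 := by linarith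
    rw [h1] at hle
    linarith
  · simp at hne
  · refine ⟨h, n.toNat, by omega, ?_⟩
    rw [← zpow_natCast, Int.toNat_of_nonneg hn.le]

theorem IsPosUnip.mem_conj {g : SL(2, ℤ)} (hg : IsPosUnip g) (c : SL(2, ℤ)) :
    IsPosUnip (c⁻¹ * g * c) := by
  obtain ⟨h, n, hn, rfl⟩ := hg
  exact ⟨h * c, n, hn, by group⟩

/-! ### Cusps -/

variable (Γ) in
/-- The cusps of `Γ`: orbits of `T` on the cosets. -/
abbrev Cusps : Type := MulAction.orbitRel.Quotient (Subgroup.zpowers T) (SL(2, ℤ) ⧸ Γ)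

/-- The width of the cusp through a coset. -/
noncomputable def width (x : SL(2, ℤ) ⧸ Γ) : ℕ := Function.minimalPeriod (T • ·) x

/-- The positive generator of the stabiliser of the cusp through a coset. -/
noncomputable def cuspElt (x : SL(2, ℤ) ⧸ Γ) : Γ :=
  ⟨x.out⁻¹ * T ^ width x * x.out, QuotientGroup.out_conj_pow_minimalPeriod_mem Γ T x⟩

/-- The positive generator attached to a cusp. -/
noncomputable def cuspGen (O : Cusps Γ) : Γ := cuspElt O.out

theorem width_pos [Γ.FiniteIndex] (x : SL(2, ℤ) ⧸ Γ) : 0 < width x :=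
  Function.IsPeriodicPt.minimalPeriod_pos (orderOf_pos (MulAction.toPerm T : Equiv.Perm _))
    (by
      have := congrArg (fun e : Equiv.Perm (SL(2, ℤ) ⧸ Γ) => e x)
        (pow_orderOf_eq_one (MulAction.toPerm T : Equiv.Perm (SL(2, ℤ) ⧸ Γ)))
      rw [Equiv.Perm.coe_pow] at this
      exact this)

theorem isPosUnip_cuspGen [Γ.FiniteIndex] (O : Cusps Γ) : IsPosUnip (cuspGen O : SL(2, ℤ)) :=
  ⟨O.out.out, width O.out, width_pos _, rfl⟩

theorem T_pow_smul_eq_iff (x : SL(2, ℤ) ⧸ Γ) (n : ℕ) : T ^ n • x = x ↔ width x ∣ n :=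
  MulAction.pow_smul_eq_iff_minimalPeriod_dvd

theorem smul_mk_eq_iff (g a : SL(2, ℤ)) :
    g • (QuotientGroup.mk a : SL(2, ℤ) ⧸ Γ) = QuotientGroup.mk a ↔ a⁻¹ * g * a ∈ Γ := by
  rw [MulAction.Quotient.smul_mk, eq_comm, QuotientGroup.eq]
  simp [mul_assoc]

/-- Every positive unipotent element of `Γ` is a power of a conjugate of a cusp generator. -/
theorem exists_conj_cuspGen_pow {γ : Γ} (hγ : IsPosUnip (γ : SL(2, ℤ))) :
    ∃ (O : Cusps Γ) (c : Γ) (k : ℕ), γ = c⁻¹ * cuspGen O ^ k * c := by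
  obtain ⟨g, n, hn, hg⟩ := hγ
  let x : SL(2, ℤ) ⧸ Γ := QuotientGroup.mk g
  let O : Cusps Γ := Quotient.mk'' x
  have hrel : x ∈ MulAction.orbit (Subgroup.zpowers T) O.out :=
    MulAction.orbitRel_apply.mp
      (Quotient.exact' (by rw [Quotient.out_eq'] : (Quotient.mk'' x : Cusps Γ) = Quotient.mk'' O.out))
  obtain ⟨⟨_, i, rfl⟩, hi⟩ := hrel
  change T ^ i • O.out = x at hi
  have hx : T ^ n • x = x := (smul_mk_eq_iff _ _).mpr (hg ▸ γ.2)
  have hw : width O.out ∣ n := by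
    rw [← T_pow_smul_eq_iff]
    rw [← hi, smul_smul] at hx
    have e : (T ^ n : SL(2, ℤ)) * T ^ i = T ^ i * T ^ n := by
      rw [← zpow_natCast, ← zpow_add, ← zpow_add, add_comm]
    rw [e, mul_smul] at hx
    exact smul_left_cancel _ hx
  obtain ⟨k, hk⟩ := hw
  have hc : O.out.out⁻¹ * (T ^ i)⁻¹ * g ∈ Γ := by
    rw [← _root_.mul_inv_rev]
    apply QuotientGroup.eq.mp
    show (QuotientGroup.mk (T ^ i * O.out.out) : SL(2, ℤ) ⧸ Γ) = x
    rw [← hi, ← smul_eq_mul, ← MulAction.Quotient.smul_mk, QuotientGroup.out_eq']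
  refine ⟨O, ⟨_, hc⟩, k, ?_⟩
  apply Subtype.ext
  rw [Subgroup.coe_mul, Subgroup.coe_mul, Subgroup.coe_inv, Subgroup.coe_pow, hg]
  show g⁻¹ * T ^ n * g =
    (O.out.out⁻¹ * (T ^ i)⁻¹ * g)⁻¹ * (O.out.out⁻¹ * T ^ width O.out * O.out.out) ^ k
      * (O.out.out⁻¹ * (T ^ i)⁻¹ * g)
  rw [inv_conj_pow, ← pow_mul, ← hk]
  group

theorem eq_T_zpow_or_neg {M : SL(2, ℤ)} (h : M.1 1 0 = 0) :
    ∃ j : ℤ, M = T ^ j ∨ M = -(T ^ j) := by
  have hdet := M.2
  rw [Matrix.det_fin_two, h, mul_zero, sub_zero] at hdet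
  rcases Int.eq_one_or_neg_one_of_mul_eq_one' hdet with ⟨h0, h1⟩ | ⟨h0, h1⟩
  · refine ⟨M.1 0 1, Or.inl ?_⟩
    apply Subtype.ext
    rw [coe_T_zpow]
    ext i j
    fin_cases i <;> fin_cases j <;> simp [h, h0, h1]
  · refine ⟨-M.1 0 1, Or.inr ?_⟩
    apply Subtype.ext
    rw [Matrix.SpecialLinearGroup.coe_neg, coe_T_zpow]
    ext i j
    fin_cases i <;> fin_cases j <;> simp [h, h0, h1]

theorem neg_smul_coset [HasNegOne Γ] (g : SL(2, ℤ)) (x : SL(2, ℤ) ⧸ Γ) : -g • x = g • x := by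
  induction x using QuotientGroup.induction_on with
  | H a =>
    rw [MulAction.Quotient.smul_mk, MulAction.Quotient.smul_mk, QuotientGroup.eq]
    have : (-g • a)⁻¹ * g • a = (-1 : SL(2, ℤ)) := by
      apply inv_mul_eq_iff_eq_mul.mpr
      apply Subtype.ext
      simp [smul_eq_mul, Matrix.SpecialLinearGroup.coe_neg, Matrix.neg_mul]
    rw [this]
    exact HasNegOne.neg_one_mem

/-- A cusp generator is not conjugate to a power of another one. -/
theorem cuspGen_pow_conj_inj [HasNegOne Γ] [Γ.FiniteIndex] {O O' : Cusps Γ} {c : Γ} {k : ℕ}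
    (h : c⁻¹ * cuspGen O ^ k * c = cuspGen O') : O = O' ∧ k = 1 := by
  set r := O.out.out with hr
  set r' := O'.out.out with hr'
  set w := width O.out with hw
  set w' := width O'.out with hw'
  obtain ⟨M, hMe⟩ : ∃ M : SL(2, ℤ), M = r * c * r'⁻¹ := ⟨_, rfl⟩
  have h' : (c : SL(2, ℤ))⁻¹ * (r⁻¹ * T ^ w * r) ^ k * c = r'⁻¹ * T ^ w' * r' :=
    congrArg Subtype.val h
  rw [inv_conj_pow, ← pow_mul] at h'
  have e : T ^ (w * k) * M = M * T ^ w' := by
    calc T ^ (w * k) * M = r * c * ((c : SL(2, ℤ))⁻¹ * (r⁻¹ * T ^ (w * k) * r) * c) * r'⁻¹ := by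
          rw [hMe]; group
      _ = _ := by rw [h']; rw [hMe]; group
  have e' := congrArg Subtype.val e
  rw [Matrix.SpecialLinearGroup.coe_mul, Matrix.SpecialLinearGroup.coe_mul, coe_T_pow,
    coe_T_pow] at e'
  have e00 := congrFun (congrFun e' 0) 0
  have e01 := congrFun (congrFun e' 0) 1
  simp [Matrix.mul_apply, Fin.sum_univ_two] at e00 e01
  have hk : k ≠ 0 := by
    rintro rfl
    simp at h
    exact (isPosUnip_cuspGen O').ne_one (congrArg Subtype.val h.symm)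
  have hwk : w * k ≠ 0 := Nat.mul_ne_zero (width_pos _).ne' hk
  have hM : M.1 1 0 = 0 := e00.resolve_left (not_or.mpr ⟨(width_pos _).ne', hk⟩)
  obtain ⟨j, hj⟩ := eq_T_zpow_or_neg hM
  have hsm : M • O'.out = O.out := by
    conv_lhs => rw [← QuotientGroup.out_eq' O'.out]
    conv_rhs => rw [← QuotientGroup.out_eq' O.out]
    rw [MulAction.Quotient.smul_mk, smul_eq_mul, QuotientGroup.eq]
    have : (M * O'.out.out)⁻¹ * O.out.out = (c : SL(2, ℤ))⁻¹ := by
      rw [hMe, hr, hr']; group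
    rw [this]
    exact inv_mem c.2
  have hsm' : T ^ j • O'.out = O.out := by
    rcases hj with hj | hj <;> rw [hj] at hsm
    · exact hsm
    · rwa [neg_smul_coset] at hsm
  have hOO : O = O' := by
    rw [← Quotient.out_eq' O, ← Quotient.out_eq' O']
    exact Quotient.sound' (MulAction.orbitRel_apply.mpr ⟨⟨T ^ j, j, rfl⟩, hsm'⟩)
  refine ⟨hOO, ?_⟩
  subst hOO
  have hMdet : M.1 0 0 = M.1 1 1 ∧ M.1 1 1 ≠ 0 := by
    rcases hj with hj | hj <;>
      simp [hj, coe_T_zpow, Matrix.SpecialLinearGroup.coe_neg]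
  rw [hMdet.1] at e01
  have hww : (w : ℤ) * k = w' := by
    apply mul_right_cancel₀ hMdet.2
    linear_combination e01
  have : w * k = w := by
    have h3 : (w : ℤ) * k = w := hww
    exact_mod_cast h3
  exact Nat.eq_of_mul_eq_mul_left (width_pos _) (this.trans (mul_one w).symm)

/-! ### Cusp sums -/

variable (Γ) in
/-- The sum of a function over the cusp generators. -/
noncomputable def cuspSum [Γ.FiniteIndex] {B : Type*} [AddCommMonoid B] (F : Γ → B) : B :=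
  letI := Fintype.ofFinite (Cusps Γ)
  ∑ O : Cusps Γ, F (cuspGen O)

variable {Γ' : Subgroup SL(2, ℤ)}

/-- `e : Γ ≃* Γ'` is conjugation by the integral matrix `α` of positive determinant. -/
structure IsConjBy (α : Matrix (Fin 2) (Fin 2) ℤ) (e : Γ ≃* Γ') : Prop where
  det_pos : 0 < α.det
  conj : ∀ γ : Γ, ((e γ : SL(2, ℤ)) : Matrix (Fin 2) (Fin 2) ℤ) * α = α * (γ : SL(2, ℤ))

theorem IsConjBy.symm {α : Matrix (Fin 2) (Fin 2) ℤ} {e : Γ ≃* Γ'} (h : IsConjBy α e) :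
    IsConjBy α.adjugate e.symm := by
  refine ⟨?_, fun γ => ?_⟩
  · rw [Matrix.det_adjugate]; simpa using h.det_pos
  · have := h.conj (e.symm γ)
    rw [MulEquiv.apply_symm_apply] at this
    have h2 := congrArg (fun M => α.adjugate * M * α.adjugate) this
    simp only [Matrix.mul_assoc] at h2
    rw [← Matrix.mul_assoc α.adjugate α, Matrix.adjugate_mul, Matrix.mul_adjugate] at h2
    simp only [Matrix.mul_smul, Matrix.smul_mul, Matrix.mul_one, Matrix.one_mul] at h2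
    exact (smul_right_injective _ h.det_pos.ne' h2).symm

theorem IsConjBy.trace_eq {α : Matrix (Fin 2) (Fin 2) ℤ} {e : Γ ≃* Γ'} (h : IsConjBy α e)
    (γ : Γ) :
    ((e γ : SL(2, ℤ)) : Matrix (Fin 2) (Fin 2) ℤ).trace
      = ((γ : SL(2, ℤ)) : Matrix (Fin 2) (Fin 2) ℤ).trace := by
  have h2 := congrArg (fun M => (M * α.adjugate).trace) (h.conj γ)
  simp only [Matrix.mul_assoc, Matrix.mul_adjugate] at h2
  rw [Matrix.trace_mul_comm α, Matrix.mul_assoc, Matrix.adjugate_mul] at h2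
  simp only [Matrix.mul_smul, Matrix.mul_one, Matrix.trace_smul, smul_eq_mul] at h2
  exact mul_left_cancel₀ h.det_pos.ne' h2

theorem IsConjBy.mem_parabolicHoms {α : Matrix (Fin 2) (Fin 2) ℤ} {e : Γ ≃* Γ'}
    (h : IsConjBy α e) {R : Type*} [CommRing R] {φ : Additive Γ' →+ R}
    (hφ : φ ∈ ModularCurve.Period.parabolicHoms R Γ' R) :
    φ.comp (MonoidHom.toAdditive e.toMonoidHom) ∈ ModularCurve.Period.parabolicHoms R Γ R :=
  fun γ hγ => hφ (e γ) ((congrArg (· ^ 2) (h.trace_eq γ)).trans hγ)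

theorem IsConjBy.isPosUnip {α : Matrix (Fin 2) (Fin 2) ℤ} {e : Γ ≃* Γ'} (h : IsConjBy α e)
    {γ : Γ} (hγ : IsPosUnip (γ : SL(2, ℤ))) : IsPosUnip (e γ : SL(2, ℤ)) := by
  refine isPosUnip_of_wedgeForm_nonpos ((h.trace_eq γ).trans hγ.trace_eq) ?_ ?_
  · intro e1
    have : e γ = 1 := Subtype.ext e1
    rw [MulEquiv.map_eq_one_iff] at this
    exact hγ.ne_one (congrArg Subtype.val this)
  · intro x y
    have key := wedgeForm_conj _ _ _ (h.conj γ) (α 1 1 * x - α 0 1 * y) (-α 1 0 * x + α 0 0 * y)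
    have hle := mul_nonpos_of_nonneg_of_nonpos h.det_pos.le
      (hγ.wedgeForm_nonpos (α 1 1 * x - α 0 1 * y) (-α 1 0 * x + α 0 0 * y))
    rw [← key] at hle
    have hscale : wedgeForm ((e γ : SL(2, ℤ)) : Matrix (Fin 2) (Fin 2) ℤ)
        (α 0 0 * (α 1 1 * x - α 0 1 * y) + α 0 1 * (-α 1 0 * x + α 0 0 * y))
        (α 1 0 * (α 1 1 * x - α 0 1 * y) + α 1 1 * (-α 1 0 * x + α 0 0 * y))
        = α.det ^ 2 * wedgeForm ((e γ : SL(2, ℤ)) : Matrix (Fin 2) (Fin 2) ℤ) x y := by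
      simp only [wedgeForm, Matrix.det_fin_two]; ring
    rw [hscale] at hle
    exact nonpos_of_mul_nonpos_right hle (by positivity [h.det_pos])

theorem IsConjBy.exists_cusp [Γ.FiniteIndex] {α : Matrix (Fin 2) (Fin 2) ℤ} {e : Γ ≃* Γ'}
    (h : IsConjBy α e) (O : Cusps Γ) :
    ∃ (O' : Cusps Γ') (c : Γ') (k : ℕ), e (cuspGen O) = c⁻¹ * cuspGen O' ^ k * c :=
  exists_conj_cuspGen_pow (h.isPosUnip (isPosUnip_cuspGen O))

/-- Cusp sums are invariant under conjugation by a matrix of positive determinant. -/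
theorem cuspSum_comp [Γ.FiniteIndex] [Γ'.FiniteIndex] [HasNegOne Γ] [HasNegOne Γ']
    {α : Matrix (Fin 2) (Fin 2) ℤ} {e : Γ ≃* Γ'} (h : IsConjBy α e)
    {B : Type*} [AddCommMonoid B] (F : Γ' → B)
    (hF : ∀ c γ : Γ', IsPosUnip (γ : SL(2, ℤ)) → F (c⁻¹ * γ * c) = F γ) :
    cuspSum Γ (fun γ => F (e γ)) = cuspSum Γ' F := by
  choose σ c k hσ using h.exists_cusp
  choose τ d l hτ using h.symm.exists_cusp
  have hτσ : ∀ O, τ (σ O) = O ∧ l (σ O) * k O = 1 := fun O => by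
    apply cuspGen_pow_conj_inj (c := d (σ O) * e.symm (c O))
    have h1 := congrArg e.symm (hσ O)
    rw [MulEquiv.symm_apply_apply, map_mul, map_mul, map_inv, map_pow, hτ,
      inv_conj_pow, ← pow_mul, inv_conj_conj] at h1
    exact h1.symm
  have hστ : ∀ O, σ (τ O) = O ∧ k (τ O) * l O = 1 := fun O => by
    apply cuspGen_pow_conj_inj (c := c (τ O) * e (d O))
    have h1 := congrArg e (hτ O)
    rw [MulEquiv.apply_symm_apply, map_mul, map_mul, map_inv, map_pow, hσ,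
      inv_conj_pow, ← pow_mul, inv_conj_conj] at h1
    exact h1.symm
  letI := Fintype.ofFinite (Cusps Γ)
  letI := Fintype.ofFinite (Cusps Γ')
  show ∑ O : Cusps Γ, F (e (cuspGen O)) = ∑ O : Cusps Γ', F (cuspGen O)
  refine Fintype.sum_equiv ⟨σ, τ, fun O => (hτσ O).1, fun O => (hστ O).1⟩ _ _ fun O => ?_
  have hk : k O = 1 := Nat.eq_one_of_mul_eq_one_left (hτσ O).2
  rw [hσ O, hk, pow_one]
  exact hF _ _ (isPosUnip_cuspGen _)

end Fermat.Agent.Pairing
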