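import Fermat.Agent.LR.Pairing.Basic
import Fermat.Agent.MF.ParHom.Presentation
import Mathlib.GroupTheory.Perm.Cycle.Basic
import Mathlib.Algebra.Group.Torsion

/-!
# Normalised cocycles on the cosets of a finite index subgroup

A homomorphism `φ : Γ → R` extends to a cocycle on `SL(2,ℤ) × SL(2,ℤ)/Γ` vanishing on the order
three generator, determined by its values on `S`: the modular symbol of `φ`.
-/

set_option autoImplicit false

open ModularGroup Matrix
open scoped MatrixGroups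

namespace Fermat.Agent.Pairing

open Fermat.Agent.MF.ParHom (genU S_sq genU_cube T_eq closure_S_genU slLift slLift_S slLift_genU
  exists_conj_T_zpow)

section Perm

variable {X : Type*} {R : Type*} [AddCommGroup R]

/-- Partial sums of `c` along an orbit of `σ`. -/
def orbitSum (σ : Equiv.Perm X) (c : X → R) (x : X) (n : ℕ) : R :=
  ∑ i ∈ Finset.range n, c ((σ ^ i) x)

theorem orbitSum_succ (σ : Equiv.Perm X) (c : X → R) (x : X) (n : ℕ) :
    orbitSum σ c x (n + 1) = orbitSum σ c x n + c ((σ ^ n) x) :=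
  Finset.sum_range_succ _ _

theorem orbitSum_add (σ : Equiv.Perm X) (c : X → R) (x : X) (n m : ℕ) :
    orbitSum σ c x (n + m) = orbitSum σ c x n + orbitSum σ c ((σ ^ n) x) m := by
  rw [orbitSum, Finset.sum_range_add]
  congr 1
  refine Finset.sum_congr rfl fun i _ => ?_
  rw [add_comm, pow_add, Equiv.Perm.mul_apply]

/-- A function with vanishing orbit sums is a difference. -/
theorem exists_primitive_perm [Finite X] (σ : Equiv.Perm X) (c : X → R)
    (h : ∀ x n, (σ ^ n) x = x → orbitSum σ c x n = 0) :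
    ∃ B : X → R, ∀ x, B (σ x) - B x = c x := by
  classical
  have well : ∀ (r : X) n m, (σ ^ n) r = (σ ^ m) r → orbitSum σ c r n = orbitSum σ c r m := by
    suffices key : ∀ (r : X) n m, n ≤ m → (σ ^ n) r = (σ ^ m) r →
        orbitSum σ c r n = orbitSum σ c r m by
      intro r n m e
      rcases le_total n m with l | l
      · exact key r n m l e
      · exact (key r m n l e.symm).symm
    intro r n m l e
    obtain ⟨d, rfl⟩ := Nat.exists_eq_add_of_le l
    rw [orbitSum_add, h _ d, add_zero]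
    rw [← Equiv.Perm.mul_apply, ← pow_add, add_comm d n]
    exact e.symm
  let rep : X → X := fun x => (Quotient.mk (Equiv.Perm.SameCycle.setoid σ) x).out
  have hrep : ∀ x, ∃ n : ℕ, (σ ^ n) (rep x) = x := fun x =>
    Equiv.Perm.SameCycle.exists_nat_pow_eq (f := σ) (x := rep x) (y := x)
      (Quotient.mk_out (s := Equiv.Perm.SameCycle.setoid σ) x)
  choose n hn using hrep
  refine ⟨fun x => orbitSum σ c (rep x) (n x), fun x => ?_⟩
  have hsame : rep (σ x) = rep x := by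
    show Quotient.out _ = Quotient.out _
    congr 1
    exact Quotient.sound (Equiv.Perm.sameCycle_apply_left.mpr (Equiv.Perm.SameCycle.refl _ _))
  show orbitSum σ c (rep (σ x)) (n (σ x)) - orbitSum σ c (rep x) (n x) = c x
  rw [hsame, well (rep x) (n (σ x)) (n x + 1), orbitSum_succ, hn, add_sub_cancel_left]
  conv_rhs => rw [pow_succ', Equiv.Perm.mul_apply, hn]
  rw [← hsame, hn]

end Perm

theorem closure_induction_gen {P : SL(2, ℤ) → Prop} (hS : P S) (hU : P genU) (h1 : P 1)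
    (hmul : ∀ g g', P g → P g' → P (g * g')) (g : SL(2, ℤ)) : P g := by
  have hS4 : (S : SL(2, ℤ))⁻¹ = S * S * S := by decide
  have hU6 : (genU : SL(2, ℤ))⁻¹ = genU * genU * genU * genU * genU := by decide
  have hmem : g ∈ Subgroup.closure ({S, genU} : Set SL(2, ℤ)) := by
    rw [closure_S_genU]; trivial
  induction hmem using Subgroup.closure_induction'' with
  | one => exact h1
  | mem x hx =>
    rcases hx with rfl | hx
    · exact hS
    · rw [Set.mem_singleton_iff.mp hx]; exact hU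
  | inv_mem x hx =>
    rcases hx with rfl | hx
    · rw [hS4]; exact hmul _ _ (hmul _ _ hS hS) hS
    · rw [Set.mem_singleton_iff.mp hx, hU6]
      exact hmul _ _ (hmul _ _ (hmul _ _ (hmul _ _ hU hU) hU) hU) hU
  | mul x y _ _ hx hy => exact hmul x y hx hy

variable {Γ : Subgroup SL(2, ℤ)} {R : Type*} [CommRing R]

variable (Γ) in
/-- The base coset. -/
abbrev baseCoset : SL(2, ℤ) ⧸ Γ := ((1 : SL(2, ℤ)) : SL(2, ℤ) ⧸ Γ)

theorem coe_smul_baseCoset (g : SL(2, ℤ)) :
    g • baseCoset Γ = (g : SL(2, ℤ) ⧸ Γ) := by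
  rw [baseCoset, MulAction.Quotient.smul_mk, smul_eq_mul, mul_one]

theorem mem_smul_baseCoset (γ : Γ) : (γ : SL(2, ℤ)) • baseCoset Γ = baseCoset Γ := by
  rw [smul_mk_eq_iff, inv_one, one_mul, mul_one]
  exact γ.2

theorem neg_one_smul_coset [HasNegOne Γ] (x : SL(2, ℤ) ⧸ Γ) : (-1 : SL(2, ℤ)) • x = x := by
  simpa using neg_smul_coset (1 : SL(2, ℤ)) x

/-- `κ` is a cocycle. -/
def IsCoc (κ : SL(2, ℤ) → (SL(2, ℤ) ⧸ Γ) → R) : Prop :=
  ∀ g g' x, κ (g * g') x = κ g (g' • x) + κ g' x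

/-- `κ` is a normalised cocycle extending `φ`. -/
structure IsCocycleFor (φ : Additive Γ →+ R) (κ : SL(2, ℤ) → (SL(2, ℤ) ⧸ Γ) → R) : Prop where
  coc : IsCoc κ
  base : ∀ γ : Γ, κ γ (baseCoset Γ) = φ (Additive.ofMul γ)
  genU_apply : ∀ x, κ genU x = 0

variable {κ ν : SL(2, ℤ) → (SL(2, ℤ) ⧸ Γ) → R} {φ ψ : Additive Γ →+ R}

theorem IsCoc.one (h : IsCoc κ) (x : SL(2, ℤ) ⧸ Γ) : κ 1 x = 0 := by
  have := h 1 1 x
  rw [mul_one, one_smul] at this
  exact left_eq_add.mp this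

theorem IsCoc.inv (h : IsCoc κ) (g : SL(2, ℤ)) (x : SL(2, ℤ) ⧸ Γ) :
    κ g⁻¹ (g • x) = -κ g x := by
  have := h g⁻¹ g x
  rw [inv_mul_cancel, h.one] at this
  exact eq_neg_of_add_eq_zero_left this.symm

theorem IsCoc.ext (hκ : IsCoc κ) (hν : IsCoc ν) (hS : ∀ x, κ S x = ν S x)
    (hU : ∀ x, κ genU x = ν genU x) (g : SL(2, ℤ)) (x : SL(2, ℤ) ⧸ Γ) : κ g x = ν g x := by
  suffices ∀ x, κ g x = ν g x from this x
  refine closure_induction_gen (P := fun g => ∀ x, κ g x = ν g x) hS hU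
    (fun x => (hκ.one x).trans (hν.one x).symm) (fun g g' hg hg' x => ?_) g
  rw [hκ, hν, hg, hg']

theorem IsCoc.value (h : IsCoc κ) (g : SL(2, ℤ)) (r : SL(2, ℤ)) {γ : Γ}
    (hγ : g * r = r * γ) :
    κ g (r : SL(2, ℤ) ⧸ Γ) = κ (γ : SL(2, ℤ)) (baseCoset Γ) := by
  have h1 := h g r (baseCoset Γ)
  have h2 := h r γ (baseCoset Γ)
  rw [coe_smul_baseCoset, hγ] at h1
  rw [mem_smul_baseCoset] at h2
  rw [h2, add_comm] at h1
  exact (add_right_cancel h1).symm

theorem IsCocycleFor.value (h : IsCocycleFor φ κ) (g r : SL(2, ℤ)) {γ : Γ}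
    (hγ : g * r = r * γ) : κ g (r : SL(2, ℤ) ⧸ Γ) = φ (Additive.ofMul γ) := by
  rw [h.coc.value g r hγ, h.base]

theorem IsCocycleFor.add (h : IsCocycleFor φ κ) (h' : IsCocycleFor ψ ν) :
    IsCocycleFor (φ + ψ) (fun g x => κ g x + ν g x) where
  coc g g' x := by simp only []; rw [h.coc, h'.coc]; abel
  base γ := by rw [h.base, h'.base]; rfl
  genU_apply x := by rw [h.genU_apply, h'.genU_apply, add_zero]

theorem IsCocycleFor.smul (h : IsCocycleFor φ κ) (c : R) :
    IsCocycleFor (c • φ) (fun g x => c * κ g x) where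
  coc g g' x := by simp only []; rw [h.coc, mul_add]
  base γ := by rw [h.base]; rfl
  genU_apply x := by rw [h.genU_apply, mul_zero]

theorem IsCocycleFor.neg_one (h : IsCocycleFor φ κ) (x : SL(2, ℤ) ⧸ Γ) : κ (-1) x = 0 := by
  rw [← genU_cube, h.coc, h.coc, h.genU_apply, h.genU_apply, h.genU_apply, add_zero, add_zero]

theorem IsCocycleFor.neg_eq (h : IsCocycleFor φ κ) (g : SL(2, ℤ)) (x : SL(2, ℤ) ⧸ Γ) :
    κ (-g) x = κ g x := by
  rw [← neg_one_mul g, h.coc, h.neg_one, zero_add]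

theorem IsCocycleFor.S_smul [HasNegOne Γ] (h : IsCocycleFor φ κ) (x : SL(2, ℤ) ⧸ Γ) :
    κ S (S • x) = -κ S x := by
  have := h.coc S S x
  rw [S_sq, h.neg_one] at this
  exact eq_neg_of_add_eq_zero_left this.symm

theorem IsCocycleFor.T_apply (h : IsCocycleFor φ κ) (x : SL(2, ℤ) ⧸ Γ) :
    κ T x = κ S (genU • x) := by
  rw [T_eq, h.neg_eq, h.coc, h.genU_apply, add_zero]

theorem T_smul_eq [HasNegOne Γ] (x : SL(2, ℤ) ⧸ Γ) : T • x = S • genU • x := by
  rw [T_eq, neg_smul_coset, mul_smul]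

theorem S_S_smul [HasNegOne Γ] (x : SL(2, ℤ) ⧸ Γ) : S • S • x = x := by
  rw [smul_smul, S_sq, neg_one_smul_coset]

/-- The permutation of cosets given by an element. -/
def cosetPerm (g : SL(2, ℤ)) : Equiv.Perm (SL(2, ℤ) ⧸ Γ) := MulAction.toPerm g

theorem cosetPerm_pow_apply (g : SL(2, ℤ)) (n : ℕ) (x : SL(2, ℤ) ⧸ Γ) :
    (cosetPerm g ^ n) x = g ^ n • x := by
  induction n with
  | zero => simp
  | succ n ih => rw [pow_succ', Equiv.Perm.mul_apply, ih, pow_succ', mul_smul]; rfl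

theorem IsCoc.orbitSum_eq (h : IsCoc κ) (g : SL(2, ℤ)) (x : SL(2, ℤ) ⧸ Γ) (n : ℕ) :
    orbitSum (cosetPerm g) (κ g) x n = κ (g ^ n) x := by
  induction n with
  | zero => rw [pow_zero, h.one]; rfl
  | succ n ih => rw [orbitSum_succ, ih, pow_succ', h, cosetPerm_pow_apply, add_comm]

theorem hom_eq_zero_of_pow_eq_one [IsAddTorsionFree R] (φ : Additive Γ →+ R) {γ : Γ} {m : ℕ}
    (hm : m ≠ 0) (h : γ ^ m = 1) : φ (Additive.ofMul γ) = 0 := by
  have : m • φ (Additive.ofMul γ) = 0 := by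
    rw [← map_nsmul, ← ofMul_pow, h, ofMul_one, map_zero]
  exact (nsmul_eq_zero_iff_right hm).mp this

/-- Every homomorphism to a torsion-free group has a normalised cocycle. -/
theorem exists_isCocycleFor [Γ.FiniteIndex] [HasNegOne Γ] [IsAddTorsionFree R]
    (φ : Additive Γ →+ R) : ∃ κ, IsCocycleFor φ κ := by
  let hh : SL(2, ℤ) → (SL(2, ℤ) ⧸ Γ) → Γ := fun g x =>
    ⟨(g • x).out⁻¹ * g * x.out, by
      rw [mul_assoc]
      refine QuotientGroup.eq.mp ?_
      rw [QuotientGroup.out_eq', ← smul_eq_mul, ← MulAction.Quotient.smul_mk,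
        QuotientGroup.out_eq']⟩
  let κ₀ : SL(2, ℤ) → (SL(2, ℤ) ⧸ Γ) → R := fun g x => φ (Additive.ofMul (hh g x))
  have hcoc : IsCoc κ₀ := by
    intro g g' x
    simp only [κ₀, ← map_add, ← ofMul_mul]
    congr 2
    apply Subtype.ext
    simp only [hh, Subgroup.coe_mul, mul_smul]
    group
  have hbase : ∀ γ : Γ, κ₀ γ (baseCoset Γ) = φ (Additive.ofMul γ) := by
    intro γ
    let r : Γ := ⟨(baseCoset Γ).out, by
      have := QuotientGroup.eq.mp (QuotientGroup.out_eq' (baseCoset Γ)).symm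
      simpa using this⟩
    have : hh γ (baseCoset Γ) = r⁻¹ * γ * r := by
      apply Subtype.ext
      show ((γ : SL(2, ℤ)) • baseCoset Γ).out⁻¹ * γ * _ = _
      rw [mem_smul_baseCoset]
      rfl
    simp only [κ₀, this, ofMul_mul, ofMul_inv, map_add, map_neg]
    abel
  obtain ⟨f, hf⟩ := exists_primitive_perm (cosetPerm genU) (fun x => -κ₀ genU x) (by
    intro x n hx
    rw [cosetPerm_pow_apply] at hx
    have e : orbitSum (cosetPerm genU) (fun x => -κ₀ genU x) x n = -κ₀ (genU ^ n) x := by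
      rw [← hcoc.orbitSum_eq, orbitSum, orbitSum, Finset.sum_neg_distrib]
    rw [e, neg_eq_zero]
    obtain ⟨r, rfl⟩ := QuotientGroup.mk_surjective x
    rw [hcoc.value (genU ^ n) r (γ := ⟨r⁻¹ * genU ^ n * r, (smul_mk_eq_iff _ _).mp hx⟩)
      (by simp only [mul_assoc, mul_inv_cancel_left]), hbase]
    apply hom_eq_zero_of_pow_eq_one φ (m := 6) (by norm_num)
    apply Subtype.ext
    rw [Subgroup.coe_pow, Subgroup.coe_one]
    show (r⁻¹ * genU ^ n * r) ^ 6 = 1
    rw [inv_conj_pow, ← pow_mul, mul_comm n, pow_mul]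
    have : (genU : SL(2, ℤ)) ^ 6 = 1 := by decide
    simp [this])
  refine ⟨fun g x => κ₀ g x + f (g • x) - f x, ?_, ?_, ?_⟩
  · intro g g' x
    simp only []
    rw [hcoc, mul_smul]
    abel
  · intro γ
    rw [hbase, mem_smul_baseCoset, add_sub_cancel_right]
  · intro x
    have := hf x
    show κ₀ genU x + f (genU • x) - f x = 0
    simp only [cosetPerm, MulAction.toPerm_apply] at this
    linear_combination this

/-- Cocycles and primitives with prescribed values on `S`. -/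
theorem exists_action [HasNegOne Γ] (u w b : (SL(2, ℤ) ⧸ Γ) → R)
    (hu : ∀ x, u (S • x) = -u x) (hw : ∀ x, w (S • x) = -w x)
    (hb : ∀ x, b x - b (S • x) = w x) :
    ∃ p q r : SL(2, ℤ) → (SL(2, ℤ) ⧸ Γ) → R,
      IsCoc p ∧ IsCoc q ∧
      (∀ g g' x, r (g * g') x = r g (g' • x) + r g' x + p g (g' • x) * q g' x) ∧
      (∀ x, p S x = u x ∧ q S x = w x ∧ r S x = u x * b x) ∧
      (∀ x, p genU x = 0 ∧ q genU x = 0 ∧ r genU x = 0) := by
  let H := Equiv.Perm ((SL(2, ℤ) ⧸ Γ) × R × R × R)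
  -- act on the left by Heisenberg translations
  let sFun : (SL(2, ℤ) ⧸ Γ) × R × R × R → (SL(2, ℤ) ⧸ Γ) × R × R × R := fun v =>
    (S • v.1, u v.1 + v.2.1, w v.1 + v.2.2.1, u v.1 * b v.1 + v.2.2.2 + u v.1 * v.2.2.1)
  have hsFun : Function.Involutive sFun := by
    rintro ⟨x, a, c, d⟩
    simp only [sFun, S_S_smul, hu, Prod.mk.injEq]
    refine ⟨trivial, by ring, by linear_combination hw x, ?_⟩
    linear_combination (u x) * hb x
  let s : H := hsFun.toPerm
  let uFun : H := Equiv.prodCongr (cosetPerm genU) (Equiv.refl _)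
  have hs : s * s = 1 := Equiv.ext fun v => hsFun v
  have hU : uFun * uFun * uFun = 1 := by
    refine Equiv.ext fun v => Prod.ext ?_ rfl
    show genU • genU • genU • v.1 = v.1
    rw [smul_smul, smul_smul, genU_cube, neg_one_smul_coset]
  let ρ : SL(2, ℤ) →* H := slLift hs hU
  let p : SL(2, ℤ) → (SL(2, ℤ) ⧸ Γ) → R := fun g x => (ρ g (x, 0, 0, 0)).2.1
  let q : SL(2, ℤ) → (SL(2, ℤ) ⧸ Γ) → R := fun g x => (ρ g (x, 0, 0, 0)).2.2.1
  let r : SL(2, ℤ) → (SL(2, ℤ) ⧸ Γ) → R := fun g x => (ρ g (x, 0, 0, 0)).2.2.2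
  have key : ∀ g x a c d,
      ρ g (x, a, c, d) = (g • x, p g x + a, q g x + c, r g x + d + p g x * c) := by
    suffices ∀ g, ∃ p' q' r' : (SL(2, ℤ) ⧸ Γ) → R, ∀ x a c d,
        ρ g (x, a, c, d) = (g • x, p' x + a, q' x + c, r' x + d + p' x * c) by
      intro g x a c d
      obtain ⟨p', q', r', h⟩ := this g
      simp only [p, q, r, h, mul_zero, add_zero]
    refine closure_induction_gen ?_ ?_ ?_ ?_
    · refine ⟨u, w, fun x => u x * b x, fun x a c d => ?_⟩
      rw [show ρ S = s from slLift_S hs hU]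
      rfl
    · refine ⟨0, 0, 0, fun x a c d => ?_⟩
      rw [show ρ genU = uFun from slLift_genU hs hU]
      simp only [uFun, Pi.zero_apply, zero_add, zero_mul, add_zero]
      rfl
    · refine ⟨0, 0, 0, fun x a c d => ?_⟩
      simp only [map_one, one_smul, Pi.zero_apply, zero_add, zero_mul, add_zero]
      rfl
    · rintro g g' ⟨p₁, q₁, r₁, h₁⟩ ⟨p₂, q₂, r₂, h₂⟩
      refine ⟨fun x => p₁ (g' • x) + p₂ x, fun x => q₁ (g' • x) + q₂ x,
        fun x => r₁ (g' • x) + r₂ x + p₁ (g' • x) * q₂ x, fun x a c d => ?_⟩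
      rw [map_mul, Equiv.Perm.mul_apply, h₂, h₁, mul_smul]
      simp only [Prod.mk.injEq]
      exact ⟨trivial, by ring, by ring, by ring⟩
  have hmul : ∀ g g' x, ρ (g * g') (x, 0, 0, 0) =
      (g • g' • x, p g (g' • x) + p g' x, q g (g' • x) + q g' x,
        r g (g' • x) + r g' x + p g (g' • x) * q g' x) := fun g g' x => by
    rw [map_mul, Equiv.Perm.mul_apply, key g' x 0 0 0, key g]
    simp
  refine ⟨p, q, r, fun g g' x => ?_, fun g g' x => ?_, fun g g' x => ?_, fun x => ?_, fun x => ?_⟩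
  · exact congrArg (fun v => v.2.1) (hmul g g' x)
  · exact congrArg (fun v => v.2.2.1) (hmul g g' x)
  · exact congrArg (fun v => v.2.2.2) (hmul g g' x)
  · have e : ρ S (x, 0, 0, 0) = sFun (x, 0, 0, 0) := by
      rw [show ρ S = s from slLift_S hs hU]; rfl
    simp only [p, q, r, e, sFun, mul_zero, add_zero, and_self]
  · have e : ρ genU (x, 0, 0, 0) = (genU • x, 0, 0, 0) := by
      rw [show ρ genU = uFun from slLift_genU hs hU]; rfl
    simp only [p, q, r, e, and_self]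

/-- The face condition: the values along every `T`-orbit sum to zero. -/
def IsFaceClosed (u : (SL(2, ℤ) ⧸ Γ) → R) : Prop :=
  ∀ x n, (cosetPerm T ^ n) x = x → orbitSum (cosetPerm T) (fun y => u (genU • y)) x n = 0

theorem IsCocycleFor.isFaceClosed [Γ.FiniteIndex] (h : IsCocycleFor φ κ)
    (hφ : φ ∈ ModularCurve.Period.parabolicHoms R Γ R) : IsFaceClosed (κ S) := by
  intro x n hx
  rw [cosetPerm_pow_apply] at hx
  have e : (fun y => κ S (genU • y)) = κ T := funext fun y => (h.T_apply y).symm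
  rw [e, h.coc.orbitSum_eq]
  obtain ⟨r, rfl⟩ := QuotientGroup.mk_surjective x
  rw [h.value (T ^ n) r (γ := ⟨r⁻¹ * T ^ n * r, (smul_mk_eq_iff _ _).mp hx⟩)
    (by simp only [mul_assoc, mul_inv_cancel_left])]
  refine hφ _ ?_
  show ((r⁻¹ * T ^ n * r : SL(2, ℤ)) : Matrix (Fin 2) (Fin 2) ℤ).trace ^ 2 = 4
  rw [trace_conj, coe_T_pow]
  simp [Matrix.trace_fin_two]

/-- A closed cochain comes from a parabolic homomorphism. -/
theorem exists_hom_of_isFaceClosed [Γ.FiniteIndex] [HasNegOne Γ] (u : (SL(2, ℤ) ⧸ Γ) → R)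
    (hu : ∀ x, u (S • x) = -u x) (hf : IsFaceClosed u) :
    ∃ (φ : Additive Γ →+ R) (κ : SL(2, ℤ) → (SL(2, ℤ) ⧸ Γ) → R),
      φ ∈ ModularCurve.Period.parabolicHoms R Γ R ∧ IsCocycleFor φ κ ∧ ∀ x, κ S x = u x := by
  obtain ⟨p, q, r, hp, _, _, hS, hU⟩ :=
    exists_action u 0 0 hu (fun x => by simp) (fun x => by simp)
  let φ : Additive Γ →+ R := AddMonoidHom.mk'
    (fun γ => p (Additive.toMul γ : Γ) (baseCoset Γ)) (fun a b => by
      show p ((Additive.toMul a : Γ) * (Additive.toMul b : Γ) : SL(2, ℤ)) _ = _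
      rw [hp, mem_smul_baseCoset])
  have hκ : IsCocycleFor φ p := ⟨hp, fun γ => rfl, fun x => (hU x).1⟩
  refine ⟨φ, p, ?_, hκ, fun x => (hS x).1⟩
  intro γ hγ
  obtain ⟨g, n, hg⟩ := exists_conj_T_zpow hγ
  -- reduce to a translation fixing a coset
  let x : SL(2, ℤ) ⧸ Γ := ((g⁻¹ : SL(2, ℤ)) : SL(2, ℤ) ⧸ Γ)
  have hpm : ∃ δ : Γ, (δ : SL(2, ℤ)) = g * T ^ n * g⁻¹ ∧
      φ (Additive.ofMul γ) = φ (Additive.ofMul δ) := by
    rcases hg with hg | hg
    · exact ⟨γ, hg, rfl⟩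
    · refine ⟨γ * ⟨-1, HasNegOne.neg_one_mem⟩, ?_, ?_⟩
      · rw [Subgroup.coe_mul, hg]
        simp
      · have h0 : φ (Additive.ofMul (⟨-1, HasNegOne.neg_one_mem⟩ : Γ)) = 0 := by
          rw [← hκ.base, hκ.neg_one]
        rw [ofMul_mul, map_add, h0, add_zero]
  obtain ⟨δ, hδ, hval⟩ := hpm
  rw [hval, ← hκ.value (T ^ n) g⁻¹ (γ := δ) (by rw [hδ]; group)]
  have hx : T ^ n • x = x := by
    rw [smul_mk_eq_iff, inv_inv, ← hδ]
    exact δ.2
  have hnat : ∀ k : ℕ, T ^ k • x = x → p (T ^ k) x = 0 := fun k hk => by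
    rw [← hp.orbitSum_eq]
    have e : (fun y => u (genU • y)) = p T :=
      funext fun y => by rw [hκ.T_apply, (hS _).1]
    rw [← e]
    exact hf x k (by rw [cosetPerm_pow_apply]; exact hk)
  obtain ⟨k, rfl | rfl⟩ := n.eq_nat_or_neg
  · rw [zpow_natCast] at hx ⊢
    exact hnat k hx
  · rw [_root_.zpow_neg, zpow_natCast] at hx ⊢
    have hk : T ^ k • x = x := (inv_smul_eq_iff.mp hx).symm
    have := hp.inv (T ^ k) x
    rw [hk, hnat k hk, neg_zero] at this
    exact this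

end Fermat.Agent.Pairing
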