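import Fermat.Agent.LR.Pairing.Cocycle
import Mathlib.LinearAlgebra.BilinearMap

/-!
# The intersection pairing on parabolic homomorphisms

`pairing Γ R` is the cup product pairing on `Hom_par(Γ, R)` for a torsion-free ring `R`,
computed both as a sum over cusps of a primitive and as a finite sum over cosets.
-/

set_option autoImplicit false

open ModularGroup Matrix
open scoped MatrixGroups

namespace Fermat.Agent.Pairing

open Fermat.Agent.MF.ParHom (genU genU_cube S_sq)
open ModularCurve.Period (parabolicHoms)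

variable {Γ : Subgroup SL(2, ℤ)} [Γ.FiniteIndex] [HasNegOne Γ]

theorem sum_eq_sum_cusps {B : Type*} [AddCommMonoid B] [Fintype (SL(2, ℤ) ⧸ Γ)]
    [Fintype (Cusps Γ)] (G : (SL(2, ℤ) ⧸ Γ) → B) :
    ∑ x, G x = ∑ O : Cusps Γ, ∑ i ∈ Finset.range (width O.out), G (T ^ i • O.out) := by
  classical
  rw [← Finset.sum_fiberwise (g := fun x => (Quotient.mk'' x : Cusps Γ))]
  refine Finset.sum_congr rfl fun O _ => ?_
  symm
  have hpow : ∀ (i : ℕ) (x : SL(2, ℤ) ⧸ Γ), (T • ·)^[i] x = T ^ i • x := fun i x => by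
    rw [smul_iterate]
  refine Finset.sum_bij (fun i _ => T ^ i • O.out) ?_ ?_ ?_ (fun i _ => rfl)
  · intro i _
    simp only [Finset.mem_filter, Finset.mem_univ, true_and]
    conv_rhs => rw [← Quotient.out_eq' O]
    exact Quotient.sound' (MulAction.orbitRel_apply.mpr ⟨⟨T ^ i, (i : ℤ), by simp⟩, rfl⟩)
  · intro i hi j hj hij
    rw [Finset.mem_range] at hi hj
    refine Function.iterate_injOn_Iio_minimalPeriod hi hj ?_
    simpa only [hpow] using hij
  · intro x hx
    simp only [Finset.mem_filter, Finset.mem_univ, true_and] at hx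
    obtain ⟨⟨_, m, rfl⟩, hm⟩ : x ∈ MulAction.orbit (Subgroup.zpowers T) O.out :=
      MulAction.orbitRel_apply.mp (Quotient.exact' (hx.trans (Quotient.out_eq' O).symm))
    have hw : (0 : ℤ) < width O.out := by exact_mod_cast width_pos O.out
    refine ⟨(m % (width O.out : ℤ)).toNat, ?_, ?_⟩
    · rw [Finset.mem_range]
      have := Int.emod_lt_of_pos m hw
      omega
    · rw [← zpow_natCast, Int.toNat_of_nonneg (Int.emod_nonneg _ hw.ne')]
      change T ^ m • O.out = x at hm
      rw [← hm]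
      exact MulAction.zpow_smul_mod_minimalPeriod (a := T) (b := O.out) m

variable {R : Type*} [CommRing R] [IsAddTorsionFree R] {φ ψ : Additive Γ →+ R}
  {κ ν : SL(2, ℤ) → (SL(2, ℤ) ⧸ Γ) → R}

omit [Γ.FiniteIndex] [HasNegOne Γ] [IsAddTorsionFree R] in
theorem cuspElt_value (h : IsCocycleFor φ κ) (x : SL(2, ℤ) ⧸ Γ) :
    κ (T ^ width x) x = φ (Additive.ofMul (cuspElt x)) := by
  conv_lhs => arg 2; rw [← QuotientGroup.out_eq' x]
  exact h.value _ _ (by simp only [cuspElt, mul_assoc, mul_inv_cancel_left])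

/-- Sums over cusps of a homomorphism vanish. -/
theorem cuspSum_hom_eq_zero (h : Additive Γ →+ R) :
    cuspSum Γ (fun γ => h (Additive.ofMul γ)) = 0 := by
  classical
  letI := Fintype.ofFinite (SL(2, ℤ) ⧸ Γ)
  letI := Fintype.ofFinite (Cusps Γ)
  obtain ⟨κ, hκ⟩ := exists_isCocycleFor h
  have e : cuspSum Γ (fun γ => h (Additive.ofMul γ)) = ∑ x, κ T x := by
    rw [sum_eq_sum_cusps]
    refine Finset.sum_congr rfl fun O _ => ?_
    show h (Additive.ofMul (cuspElt O.out)) = _
    rw [← cuspElt_value hκ, ← hκ.coc.orbitSum_eq]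
    exact Finset.sum_congr rfl fun i _ => by rw [cosetPerm_pow_apply]
  rw [e]
  have e2 : ∑ x, κ T x = ∑ y, κ S y := by
    simp only [hκ.T_apply]
    exact Equiv.sum_comp (cosetPerm genU) (κ S)
  have e3 : ∑ y, κ S y = -∑ y, κ S y := by
    conv_lhs => rw [← Equiv.sum_comp (cosetPerm S) (κ S)]
    simp only [cosetPerm, MulAction.toPerm_apply, hκ.S_smul, Finset.sum_neg_distrib]
  have : 2 • (∑ y, κ S y) = 0 := by rw [two_nsmul]; linear_combination e3
  rw [e2]
  exact (nsmul_eq_zero_iff_right two_ne_zero).mp this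

variable (κ ν) in
/-- The combinatorial formula for the pairing. -/
noncomputable def symbolPairing (b B : (SL(2, ℤ) ⧸ Γ) → R) : R :=
  letI := Fintype.ofFinite (SL(2, ℤ) ⧸ Γ)
  ∑ y, κ S y * (b y + B (genU⁻¹ • y))

/-- Existence of primitives together with their sum over cusps. -/
theorem exists_primitive_eq (hκ : IsCocycleFor φ κ) (hν : IsCocycleFor ψ ν)
    (hφ : φ ∈ parabolicHoms R Γ R) (hψ : ψ ∈ parabolicHoms R Γ R)
    {b B : (SL(2, ℤ) ⧸ Γ) → R}
    (hb : ∀ y, b y - b (S • y) = ν S y) (hB : ∀ x, B (T • x) - B x = ν T x) :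
    ∃ Φ : Γ → R, IsPrimitive φ ψ Φ ∧ cuspSum Γ Φ = symbolPairing κ b B := by
  classical
  letI := Fintype.ofFinite (SL(2, ℤ) ⧸ Γ)
  letI := Fintype.ofFinite (Cusps Γ)
  obtain ⟨p, q, r, hp, hq, hr, hS, hU⟩ :=
    exists_action (κ S) (ν S) b hκ.S_smul hν.S_smul hb
  have hpκ : ∀ g x, p g x = κ g x := hp.ext hκ.coc (fun x => (hS x).1)
    (fun x => by rw [(hU x).1, hκ.genU_apply])
  have hqν : ∀ g x, q g x = ν g x := hq.ext hν.coc (fun x => (hS x).2.1)
    (fun x => by rw [(hU x).2.1, hν.genU_apply])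
  let Φ : Γ → R := fun γ => r γ (baseCoset Γ)
  refine ⟨Φ, fun a c => ?_, ?_⟩
  · show r ((a : SL(2, ℤ)) * c) _ = _
    rw [hr, mem_smul_baseCoset, hpκ, hqν, hκ.base, hν.base]
  have hrU : ∀ x, r (genU * genU) x = 0 := fun x => by
    rw [hr, (hU _).2.2, (hU _).2.2, (hU _).1]; ring
  have hrneg : ∀ x, r (-1) x = 0 := fun x => by
    rw [← genU_cube, hr, hrU, (hU _).2.2, hpκ, hqν, hν.genU_apply]; ring
  have hrT : ∀ x, r T x = κ T x * b (genU • x) := fun x => by
    rw [MF.ParHom.T_eq, ← neg_one_mul (S * genU), hr, hrneg, hpκ, hκ.neg_one, zero_mul,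
      zero_add, add_zero, hr, (hS _).2.2, (hU _).2.2, hqν, hν.genU_apply, neg_one_mul,
      ← MF.ParHom.T_eq, hκ.T_apply]
    ring
  have hνn : ∀ (n : ℕ) x, ν (T ^ n) x = B (T ^ n • x) - B x := fun n x => by
    induction n with
    | zero => rw [pow_zero, hν.coc.one, one_smul, sub_self]
    | succ n ih => rw [pow_succ', hν.coc, ih, ← hB, mul_smul]; ring
  have hκn : ∀ (n : ℕ) x, κ (T ^ n) x = ∑ i ∈ Finset.range n, κ T (T ^ i • x) := fun n x => by
    rw [← hκ.coc.orbitSum_eq]
    exact Finset.sum_congr rfl fun i _ => by rw [cosetPerm_pow_apply]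
  have hrn : ∀ (n : ℕ) x, r (T ^ n) x =
      ∑ i ∈ Finset.range n, κ T (T ^ i • x) * (b (genU • T ^ i • x) + B (T ^ i • x))
        - κ (T ^ n) x * B x := fun n x => by
    induction n with
    | zero =>
      have := hr 1 1 x
      rw [mul_one, one_smul, hp.one, zero_mul, add_zero] at this
      rw [pow_zero, hκ.coc.one, left_eq_add.mp this]
      simp
    | succ n ih =>
      rw [Finset.sum_range_succ, pow_succ', hr, hrT, ih, hpκ, hqν, hνn, hκ.coc]
      ring
  -- each cusp generator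
  have hcusp : ∀ O : Cusps Γ, Φ (cuspGen O) =
      ∑ i ∈ Finset.range (width O.out),
        κ T (T ^ i • O.out) * (b (genU • T ^ i • O.out) + B (T ^ i • O.out)) := by
    intro O
    set x := O.out with hx
    have htr : ((cuspGen O : SL(2, ℤ)) : Matrix (Fin 2) (Fin 2) ℤ).trace ^ 2 = 4 :=
      (isPosUnip_cuspGen O).trace_sq
    have hκw : κ (T ^ width x) x = 0 := by
      rw [cuspElt_value hκ]
      exact hφ _ htr
    have h1 := hr x.out (cuspGen O) (baseCoset Γ)
    have h2 := hr (T ^ width x) x.out (baseCoset Γ)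
    have hmul : x.out * (cuspGen O : SL(2, ℤ)) = T ^ width x * x.out := by
      simp only [cuspGen, cuspElt, hx, mul_assoc, mul_inv_cancel_left]
    rw [hmul, mem_smul_baseCoset, hqν, hν.base, hψ _ htr, mul_zero, add_zero] at h1
    rw [coe_smul_baseCoset, QuotientGroup.out_eq', hpκ, hκw, zero_mul, add_zero, hrn, hκw,
      zero_mul, sub_zero] at h2
    show r (cuspGen O : SL(2, ℤ)) (baseCoset Γ) = _
    linear_combination h2 - h1
  calc cuspSum Γ Φ = ∑ O : Cusps Γ, Φ (cuspGen O) := rfl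
    _ = ∑ x, κ T x * (b (genU • x) + B x) := by
      rw [sum_eq_sum_cusps]; exact Finset.sum_congr rfl fun O _ => hcusp O
    _ = symbolPairing κ b B := by
      show _ = ∑ y, κ S y * (b y + B (genU⁻¹ • y))
      rw [← Equiv.sum_comp (cosetPerm genU) (fun y => κ S y * (b y + B (genU⁻¹ • y)))]
      simp only [cosetPerm, MulAction.toPerm_apply, inv_smul_smul, hκ.T_apply]

omit [IsAddTorsionFree R] in
theorem IsCocycleFor.exists_B (hν : IsCocycleFor ψ ν) (hψ : ψ ∈ parabolicHoms R Γ R) :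
    ∃ B : (SL(2, ℤ) ⧸ Γ) → R, ∀ x, B (T • x) - B x = ν T x :=
  exists_primitive_perm (cosetPerm T) (ν T) fun x n hn => by
    have e : ν T = fun y => ν S (genU • y) := funext hν.T_apply
    rw [e]
    exact hν.isFaceClosed hψ x n hn

theorem orbitSum_antisymm_eq_zero {w : (SL(2, ℤ) ⧸ Γ) → R} (hw : ∀ x, w (S • x) = -w x)
    (x : SL(2, ℤ) ⧸ Γ) (n : ℕ) (hn : (cosetPerm S ^ n) x = x) :
    orbitSum (cosetPerm S) w x n = 0 := by
  have sq : ∀ y : SL(2, ℤ) ⧸ Γ, (cosetPerm S ^ 2) y = y := fun y => by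
    rw [cosetPerm_pow_apply, pow_two, S_sq, neg_one_smul_coset]
  have he : ∀ m, (cosetPerm S ^ (2 * m)) x = x ∧ orbitSum (cosetPerm S) w x (2 * m) = 0 := by
    intro m
    induction m with
    | zero => exact ⟨rfl, rfl⟩
    | succ m ih =>
      rw [Nat.mul_succ, pow_add, Equiv.Perm.mul_apply, sq, ih.1, orbitSum_add, ih.2, ih.1]
      refine ⟨rfl, ?_⟩
      rw [orbitSum_succ, orbitSum_succ]
      simp [orbitSum, cosetPerm, hw]
  rcases Nat.even_or_odd' n with ⟨m, rfl | rfl⟩
  · exact (he m).2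
  · rw [pow_succ', Equiv.Perm.mul_apply, (he m).1] at hn
    rw [orbitSum_succ, (he m).2, (he m).1, zero_add]
    have hfix := hw x
    rw [show S • x = x from hn] at hfix
    have : 2 • w x = 0 := by rw [two_nsmul]; linear_combination hfix
    exact (nsmul_eq_zero_iff_right two_ne_zero).mp this

theorem IsCocycleFor.exists_b (hν : IsCocycleFor ψ ν) :
    ∃ b : (SL(2, ℤ) ⧸ Γ) → R, ∀ y, b y - b (S • y) = ν S y := by
  obtain ⟨b, hb⟩ := exists_primitive_perm (cosetPerm S) (fun y => -ν S y)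
    (orbitSum_antisymm_eq_zero (fun x => by rw [hν.S_smul]))
  refine ⟨b, fun y => ?_⟩
  have := hb y
  simp only [cosetPerm, MulAction.toPerm_apply] at this
  linear_combination -this

theorem exists_isPrimitive (φ ψ : parabolicHoms R Γ R) :
    ∃ Φ : Γ → R, IsPrimitive (φ : Additive Γ →+ R) ψ Φ := by
  obtain ⟨κ, hκ⟩ := exists_isCocycleFor (φ : Additive Γ →+ R)
  obtain ⟨ν, hν⟩ := exists_isCocycleFor (ψ : Additive Γ →+ R)
  obtain ⟨b, hb⟩ := hν.exists_b
  obtain ⟨B, hB⟩ := hν.exists_B ψ.2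
  obtain ⟨Φ, hΦ, -⟩ := exists_primitive_eq hκ hν φ.2 ψ.2 hb hB
  exact ⟨Φ, hΦ⟩

theorem cuspSum_eq_of_isPrimitive {Φ Φ' : Γ → R} (h : IsPrimitive φ ψ Φ)
    (h' : IsPrimitive φ ψ Φ') : cuspSum Γ Φ = cuspSum Γ Φ' := by
  have := cuspSum_hom_eq_zero (AddMonoidHom.mk'
    (fun γ : Additive Γ => Φ (Additive.toMul γ) - Φ' (Additive.toMul γ))
    (fun a b => by simp only [toMul_add, h _ _, h' _ _]; ring))
  simp only [AddMonoidHom.mk'_apply, toMul_ofMul] at this
  simp only [cuspSum, Finset.sum_sub_distrib, sub_eq_zero] at this ⊢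
  exact this

variable (Γ R) in
/-- The intersection pairing on parabolic homomorphisms. -/
noncomputable def pairing : parabolicHoms R Γ R →ₗ[R] parabolicHoms R Γ R →ₗ[R] R :=
  LinearMap.mk₂ R (fun φ ψ => cuspSum Γ (exists_isPrimitive φ ψ).choose)
    (fun φ φ' ψ => by
      have h1 := (exists_isPrimitive φ ψ).choose_spec
      have h2 := (exists_isPrimitive φ' ψ).choose_spec
      rw [cuspSum_eq_of_isPrimitive (exists_isPrimitive (φ + φ') ψ).choose_spec
        (Φ' := fun γ => (exists_isPrimitive φ ψ).choose γ + (exists_isPrimitive φ' ψ).choose γ)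
        (fun a b => by simp only [h1 a b, h2 a b, Submodule.coe_add, AddMonoidHom.add_apply]; ring)]
      exact Finset.sum_add_distrib)
    (fun c φ ψ => by
      have h1 := (exists_isPrimitive φ ψ).choose_spec
      rw [cuspSum_eq_of_isPrimitive (exists_isPrimitive (c • φ) ψ).choose_spec
        (Φ' := fun γ => c * (exists_isPrimitive φ ψ).choose γ)
        (fun a b => by
          simp only [h1 a b, Submodule.coe_smul, AddMonoidHom.smul_apply, smul_eq_mul]; ring)]
      simp only [cuspSum, smul_eq_mul, Finset.mul_sum])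
    (fun φ ψ ψ' => by
      have h1 := (exists_isPrimitive φ ψ).choose_spec
      have h2 := (exists_isPrimitive φ ψ').choose_spec
      rw [cuspSum_eq_of_isPrimitive (exists_isPrimitive φ (ψ + ψ')).choose_spec
        (Φ' := fun γ => (exists_isPrimitive φ ψ).choose γ + (exists_isPrimitive φ ψ').choose γ)
        (fun a b => by simp only [h1 a b, h2 a b, Submodule.coe_add, AddMonoidHom.add_apply]; ring)]
      exact Finset.sum_add_distrib)
    (fun c φ ψ => by
      have h1 := (exists_isPrimitive φ ψ).choose_spec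
      rw [cuspSum_eq_of_isPrimitive (exists_isPrimitive φ (c • ψ)).choose_spec
        (Φ' := fun γ => c * (exists_isPrimitive φ ψ).choose γ)
        (fun a b => by
          simp only [h1 a b, Submodule.coe_smul, AddMonoidHom.smul_apply, smul_eq_mul]; ring)]
      simp only [cuspSum, smul_eq_mul, Finset.mul_sum])

/-- The pairing is the cusp sum of any primitive. -/
theorem pairing_eq_cuspSum (φ ψ : parabolicHoms R Γ R) {Φ : Γ → R}
    (h : IsPrimitive (φ : Additive Γ →+ R) ψ Φ) : pairing Γ R φ ψ = cuspSum Γ Φ :=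
  cuspSum_eq_of_isPrimitive (exists_isPrimitive φ ψ).choose_spec h

/-- The pairing as a finite sum of modular symbols. -/
theorem pairing_eq_symbolPairing (φ ψ : parabolicHoms R Γ R)
    {κ ν : SL(2, ℤ) → (SL(2, ℤ) ⧸ Γ) → R} (hκ : IsCocycleFor (φ : Additive Γ →+ R) κ)
    (hν : IsCocycleFor (ψ : Additive Γ →+ R) ν) {b B : (SL(2, ℤ) ⧸ Γ) → R}
    (hb : ∀ y, b y - b (S • y) = ν S y) (hB : ∀ x, B (T • x) - B x = ν T x) :
    pairing Γ R φ ψ = symbolPairing κ b B := by
  obtain ⟨Φ, hΦ, e⟩ := exists_primitive_eq hκ hν φ.2 ψ.2 hb hB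
  rw [pairing_eq_cuspSum φ ψ hΦ, e]

theorem pairing_skew (φ ψ : parabolicHoms R Γ R) :
    pairing Γ R φ ψ = -pairing Γ R ψ φ := by
  have h := (exists_isPrimitive ψ φ).choose_spec
  rw [pairing_eq_cuspSum φ ψ (Φ := fun γ => (φ : Additive Γ →+ R) (Additive.ofMul γ) *
      (ψ : Additive Γ →+ R) (Additive.ofMul γ) - (exists_isPrimitive ψ φ).choose γ)
    (fun a b => by simp only [h a b, ofMul_mul, map_add]; ring)]
  rw [pairing_eq_cuspSum ψ φ h]
  simp only [cuspSum, ← Finset.sum_neg_distrib]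
  refine Finset.sum_congr rfl fun O _ => ?_
  rw [φ.2 (cuspGen O) (isPosUnip_cuspGen O).trace_sq, zero_mul, zero_sub]

theorem pairing_self (φ : parabolicHoms R Γ R) : pairing Γ R φ φ = 0 := by
  have : 2 • pairing Γ R φ φ = 0 := by
    rw [two_nsmul]; linear_combination pairing_skew φ φ
  exact (nsmul_eq_zero_iff_right two_ne_zero).mp this

end Fermat.Agent.Pairing
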