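import Fermat.Agent.LR.Pairing.Main
import Mathlib.LinearAlgebra.FreeModule.PID
import Mathlib.Algebra.Module.Projective
import Mathlib.RingTheory.Finiteness.Basic

/-!
# Perfectness of the intersection pairing over a principal ideal domain
-/

set_option autoImplicit false

open ModularGroup Matrix
open scoped MatrixGroups

namespace Fermat.Agent.Pairing

open Fermat.Agent.MF.ParHom (genU genU_cube)
open ModularCurve.Period (parabolicHoms)

variable (Γ : Subgroup SL(2, ℤ)) (R : Type*) [CommRing R]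

/-- Closed modular symbol cochains. -/
def closedCochains : Submodule R ((SL(2, ℤ) ⧸ Γ) → R) where
  carrier := {u | (∀ x, u (S • x) = -u x) ∧ IsFaceClosed u}
  zero_mem' := ⟨fun x => by simp, fun x n _ => by simp [orbitSum]⟩
  add_mem' := by
    rintro u v ⟨hu, hu'⟩ ⟨hv, hv'⟩
    refine ⟨fun x => by simp [hu, hv, add_comm], fun x n hn => ?_⟩
    have h1 := hu' x n hn
    have h2 := hv' x n hn
    simp only [orbitSum, Pi.add_apply, Finset.sum_add_distrib] at h1 h2 ⊢
    rw [h1, h2, add_zero]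
  smul_mem' := by
    rintro c u ⟨hu, hu'⟩
    refine ⟨fun x => by simp [hu], fun x n hn => ?_⟩
    have h1 := hu' x n hn
    simp only [orbitSum, Pi.smul_apply, smul_eq_mul, ← Finset.mul_sum] at h1 ⊢
    rw [h1, mul_zero]

variable {Γ R}
variable [Γ.FiniteIndex] [HasNegOne Γ]

theorem mem_closedCochains {u : (SL(2, ℤ) ⧸ Γ) → R} :
    u ∈ closedCochains Γ R ↔ (∀ x, u (S • x) = -u x) ∧ IsFaceClosed u := Iff.rfl

theorem IsCocycleFor.mem_closedCochains {φ : Additive Γ →+ R}
    {κ : SL(2, ℤ) → (SL(2, ℤ) ⧸ Γ) → R} (h : IsCocycleFor φ κ) (hφ : φ ∈ parabolicHoms R Γ R) :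
    κ S ∈ closedCochains Γ R :=
  ⟨h.S_smul, h.isFaceClosed hφ⟩

variable (Γ R) in
/-- The parabolic homomorphism of a closed cochain. -/
noncomputable def symbolHom : closedCochains Γ R →ₗ[R] parabolicHoms R Γ R := by
  refine
  { toFun := fun u => ⟨(exists_hom_of_isFaceClosed u.1 u.2.1 u.2.2).choose,
      (exists_hom_of_isFaceClosed u.1 u.2.1 u.2.2).choose_spec.choose_spec.1⟩
    map_add' := fun u v => Subtype.ext (AddMonoidHom.ext fun γ => ?_)
    map_smul' := fun c u => Subtype.ext (AddMonoidHom.ext fun γ => ?_) }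
  · obtain ⟨γ, rfl⟩ := Additive.ofMul.surjective γ
    obtain ⟨κ, -, hκ, hS⟩ := (exists_hom_of_isFaceClosed (u + v).1 (u + v).2.1 (u + v).2.2).choose_spec
    obtain ⟨κ₁, -, hκ₁, hS₁⟩ := (exists_hom_of_isFaceClosed u.1 u.2.1 u.2.2).choose_spec
    obtain ⟨κ₂, -, hκ₂, hS₂⟩ := (exists_hom_of_isFaceClosed v.1 v.2.1 v.2.2).choose_spec
    simp only [Submodule.coe_add, AddMonoidHom.add_apply]
    rw [← hκ.base, ← hκ₁.base, ← hκ₂.base]
    exact hκ.coc.ext (hκ₁.add hκ₂).coc (fun x => by simp [hS, hS₁, hS₂])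
      (fun x => by simp [hκ.genU_apply, hκ₁.genU_apply, hκ₂.genU_apply]) _ _
  · obtain ⟨γ, rfl⟩ := Additive.ofMul.surjective γ
    obtain ⟨κ, -, hκ, hS⟩ := (exists_hom_of_isFaceClosed (c • u).1 (c • u).2.1 (c • u).2.2).choose_spec
    obtain ⟨κ₁, -, hκ₁, hS₁⟩ := (exists_hom_of_isFaceClosed u.1 u.2.1 u.2.2).choose_spec
    simp only [Submodule.coe_smul, AddMonoidHom.smul_apply, RingHom.id_apply, smul_eq_mul]
    rw [← hκ.base, ← hκ₁.base]
    exact hκ.coc.ext (hκ₁.smul c).coc (fun x => by simp [hS, hS₁])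
      (fun x => by simp [hκ.genU_apply, hκ₁.genU_apply]) _ _

theorem symbolHom_eq_of_isCocycleFor (u : closedCochains Γ R) {φ : Additive Γ →+ R}
    {κ : SL(2, ℤ) → (SL(2, ℤ) ⧸ Γ) → R} (h : IsCocycleFor φ κ) (hS : ∀ x, κ S x = u.1 x) :
    ((symbolHom Γ R u : parabolicHoms R Γ R) : Additive Γ →+ R) = φ := by
  refine AddMonoidHom.ext fun γ => ?_
  obtain ⟨γ, rfl⟩ := Additive.ofMul.surjective γ
  obtain ⟨κ₁, -, hκ₁, hS₁⟩ := (exists_hom_of_isFaceClosed u.1 u.2.1 u.2.2).choose_spec
  show (exists_hom_of_isFaceClosed u.1 u.2.1 u.2.2).choose (Additive.ofMul γ) = _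
  rw [← hκ₁.base, ← h.base]
  exact hκ₁.coc.ext h.coc (fun x => by rw [hS, hS₁])
    (fun x => by rw [hκ₁.genU_apply, h.genU_apply]) _ _

theorem exists_cocycle_symbolHom (u : closedCochains Γ R) :
    ∃ κ, IsCocycleFor ((symbolHom Γ R u : parabolicHoms R Γ R) : Additive Γ →+ R) κ ∧
      ∀ x, κ S x = u.1 x := by
  obtain ⟨φ, κ, -, hκ, hS⟩ := exists_hom_of_isFaceClosed u.1 u.2.1 u.2.2
  exact ⟨κ, symbolHom_eq_of_isCocycleFor u hκ hS ▸ hκ, hS⟩

variable [IsAddTorsionFree R]

theorem symbolHom_surjective : Function.Surjective (symbolHom Γ R) := fun φ => by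
  obtain ⟨κ, hκ⟩ := exists_isCocycleFor (φ : Additive Γ →+ R)
  exact ⟨⟨κ S, hκ.mem_closedCochains φ.2⟩,
    Subtype.ext (symbolHom_eq_of_isCocycleFor _ hκ fun _ => rfl)⟩

variable [IsDomain R] [IsPrincipalIdealRing R]

theorem exists_closedCochains_projection :
    ∃ π : ((SL(2, ℤ) ⧸ Γ) → R) →ₗ[R] closedCochains Γ R, ∀ u : closedCochains Γ R, π u.1 = u := by
  let Q := closedCochains Γ R
  haveI : Module.IsTorsionFree R (((SL(2, ℤ) ⧸ Γ) → R) ⧸ Q) := by
    refine Module.IsTorsionFree.of_smul_eq_zero fun c m => ?_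
    induction m using Submodule.Quotient.induction_on with
    | H u =>
      intro h
      rw [← Submodule.Quotient.mk_smul, Submodule.Quotient.mk_eq_zero] at h
      by_cases hc : c = 0
      · exact Or.inl hc
      · refine Or.inr ((Submodule.Quotient.mk_eq_zero Q).mpr ⟨fun x => ?_, fun x n hn => ?_⟩)
        · have := h.1 x
          simp only [Pi.smul_apply, smul_eq_mul, ← mul_neg] at this
          exact mul_left_cancel₀ hc this
        · have := h.2 x n hn
          simp only [orbitSum, Pi.smul_apply, smul_eq_mul, ← Finset.mul_sum, mul_eq_zero] at this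
          exact this.resolve_left hc
  haveI : Module.Free R (((SL(2, ℤ) ⧸ Γ) → R) ⧸ Q) :=
    Module.free_of_finite_type_torsion_free'
  obtain ⟨s, hs⟩ := Module.projective_lifting_property Q.mkQ LinearMap.id Q.mkQ_surjective
  refine ⟨LinearMap.codRestrict Q (LinearMap.id - s ∘ₗ Q.mkQ) fun u => ?_, fun u => ?_⟩
  · rw [← Submodule.Quotient.mk_eq_zero (p := Q)]
    show Q.mkQ (u - s (Q.mkQ u)) = 0
    rw [map_sub, ← LinearMap.comp_apply Q.mkQ s, hs, LinearMap.id_apply, sub_self]
  · apply Subtype.ext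
    show u.1 - s (Q.mkQ u.1) = u.1
    rw [show Q.mkQ u.1 = 0 from (Submodule.Quotient.mk_eq_zero Q).mpr u.2, map_zero, sub_zero]

omit [IsDomain R] [IsPrincipalIdealRing R] in
theorem cube_genU_apply (x : SL(2, ℤ) ⧸ Γ) : (cosetPerm genU ^ 3) x = x := by
  rw [cosetPerm_pow_apply, pow_succ, pow_two, genU_cube, neg_one_smul_coset]

omit [IsDomain R] [IsPrincipalIdealRing R] in
theorem orbitSum_genU_eq_zero {c : (SL(2, ℤ) ⧸ Γ) → R}
    (h3 : ∀ x, orbitSum (cosetPerm genU) c x 3 = 0) (x : SL(2, ℤ) ⧸ Γ) (n : ℕ)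
    (hn : (cosetPerm genU ^ n) x = x) : orbitSum (cosetPerm genU) c x n = 0 := by
  have h3m : ∀ m, (cosetPerm genU ^ (3 * m)) x = x ∧
      orbitSum (cosetPerm genU) c x (3 * m) = 0 := by
    intro m
    induction m with
    | zero => exact ⟨rfl, rfl⟩
    | succ m ih =>
      rw [Nat.mul_succ, pow_add, Equiv.Perm.mul_apply, cube_genU_apply, orbitSum_add, ih.2, ih.1,
        h3]
      exact ⟨rfl, zero_add 0⟩
  have hnat : n = 3 * (n / 3) + n % 3 := (Nat.div_add_mod n 3).symm
  rw [hnat, add_comm, pow_add, Equiv.Perm.mul_apply, (h3m _).1] at hn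
  rw [hnat, orbitSum_add, (h3m _).2, (h3m _).1, zero_add]
  rcases (show n % 3 = 0 ∨ n % 3 = 1 ∨ n % 3 = 2 by omega) with h | h | h <;> rw [h] at hn ⊢
  · rfl
  all_goals
    have hfix : cosetPerm genU x = x := by
      have e := cube_genU_apply x
      rw [pow_succ', pow_two, Equiv.Perm.mul_apply, Equiv.Perm.mul_apply] at e
      first
      | exact (pow_one (cosetPerm genU) ▸ hn)
      | (rw [pow_two, Equiv.Perm.mul_apply] at hn; rwa [hn] at e)
    have hp : ∀ i, (cosetPerm genU ^ i) x = x := fun i => by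
      induction i with
      | zero => rfl
      | succ i ih => rw [pow_succ', Equiv.Perm.mul_apply, ih, hfix]
    have h := h3 x
    simp only [orbitSum, hp, Finset.sum_const, Finset.card_range] at h ⊢
    rw [(nsmul_eq_zero_iff_right three_ne_zero).mp h, smul_zero]

/-- Every functional on parabolic homomorphisms is given by the pairing. -/
theorem pairing_surjective (L : parabolicHoms R Γ R →ₗ[R] R) :
    ∃ ψ : parabolicHoms R Γ R, ∀ φ, pairing Γ R φ ψ = L φ := by
  classical
  letI := Fintype.ofFinite (SL(2, ℤ) ⧸ Γ)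
  obtain ⟨π, hπ⟩ := exists_closedCochains_projection (Γ := Γ) (R := R)
  let L' : ((SL(2, ℤ) ⧸ Γ) → R) →ₗ[R] R := L ∘ₗ symbolHom Γ R ∘ₗ π
  let c' : (SL(2, ℤ) ⧸ Γ) → R := fun y => L' (Pi.single y 1)
  have hL' : ∀ u, L' u = ∑ y, u y * c' y := fun u => by
    conv_lhs => rw [show u = ∑ y, u y • Pi.single y (1 : R) by ext z; simp [Pi.single_apply]]
    simp [c', map_sum]
  let c : (SL(2, ℤ) ⧸ Γ) → R := fun y => c' y - c' (S • y)
  have hcS : ∀ y, c (S • y) = -c y := fun y => by simp only [c, S_S_smul, neg_sub]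
  -- coboundaries are killed
  have hd : ∀ f : (SL(2, ℤ) ⧸ Γ) → R, (∀ x, f (genU • x) = f x) → ∑ y, c y * f y = 0 := by
    intro f hf
    have hκ : IsCocycleFor (0 : Additive Γ →+ R) fun g x => f (g • x) - f x :=
      ⟨fun g g' x => by simp only [mul_smul]; ring,
        fun γ => by simp only [mem_smul_baseCoset, sub_self, AddMonoidHom.zero_apply],
        fun x => by simp only [hf, sub_self]⟩
    let u : closedCochains Γ R :=
      ⟨fun x => f (S • x) - f x, hκ.mem_closedCochains (zero_mem _)⟩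
    have h0 : L' u.1 = 0 := by
      simp only [L', LinearMap.comp_apply, hπ]
      rw [show symbolHom Γ R u = 0 from
        Subtype.ext (symbolHom_eq_of_isCocycleFor u hκ fun _ => rfl), map_zero]
    rw [hL'] at h0
    have e : ∑ y, f (S • y) * c' y = ∑ y, f y * c' (S • y) := by
      rw [← Equiv.sum_comp (cosetPerm S) (fun y => f (S • y) * c' y)]
      simp [cosetPerm, S_S_smul]
    simp only [u, sub_mul, Finset.sum_sub_distrib, e] at h0
    simp only [c, sub_mul, Finset.sum_sub_distrib]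
    simp only [mul_comm (c' _)]
    linear_combination -h0
  have h3 : ∀ x, orbitSum (cosetPerm genU) c x 3 = 0 := by
    intro x
    let δ : (SL(2, ℤ) ⧸ Γ) → (SL(2, ℤ) ⧸ Γ) → R := fun a y => if y = a then 1 else 0
    have hδ : ∀ a y, δ a (genU • y) = δ (genU⁻¹ • a) y := fun a y => by
      simp only [δ, eq_inv_smul_iff]
    have := hd (fun y => δ x y + δ (genU • x) y + δ (genU • genU • x) y) (fun y => by
      simp only [hδ, inv_smul_smul]
      have : genU⁻¹ • x = genU • genU • x := by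
        rw [inv_smul_eq_iff, smul_smul, smul_smul, genU_cube, neg_one_smul_coset]
      rw [this]; ring)
    simp only [mul_add, Finset.sum_add_distrib, δ, mul_ite, mul_one, mul_zero,
      Finset.sum_ite_eq', Finset.mem_univ, if_true] at this
    simp only [orbitSum, Finset.sum_range_succ, Finset.sum_range_zero, cosetPerm_pow_apply,
      pow_zero, one_smul, pow_one, pow_two, mul_smul, zero_add]
    exact this
  obtain ⟨B, hB⟩ := exists_primitive_perm (cosetPerm genU) (fun x => -c (genU • x)) (by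
    intro x n hn
    have hn' : (cosetPerm genU ^ n) (genU • x) = genU • x := by
      rw [cosetPerm_pow_apply] at hn ⊢
      rw [smul_smul, pow_mul_comm', mul_smul, hn]
    have h := orbitSum_genU_eq_zero h3 (genU • x) n hn'
    simp only [orbitSum, Finset.sum_neg_distrib, neg_eq_zero] at h ⊢
    rw [← h]
    refine Finset.sum_congr rfl fun i _ => ?_
    rw [cosetPerm_pow_apply, cosetPerm_pow_apply, smul_smul, smul_smul, pow_mul_comm'])
  have hB' : ∀ y, B (genU⁻¹ • y) - B y = c y := fun y => by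
    have := hB (genU⁻¹ • y)
    simp only [cosetPerm, MulAction.toPerm_apply, smul_inv_smul] at this
    linear_combination -this
  let w : (SL(2, ℤ) ⧸ Γ) → R := fun y => B (S • y) - B (genU⁻¹ • y)
  have hw : ∀ y, w (S • y) = -w y := fun y => by
    simp only [w, S_S_smul]
    linear_combination -(hB' (S • y)) - hB' y - hcS y
  have hwB : ∀ x, B (T • x) - B x = w (genU • x) := fun x => by
    simp only [w, inv_smul_smul, T_smul_eq]
  have hwf : IsFaceClosed w := by
    intro x n hn
    rw [cosetPerm_pow_apply] at hn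
    have : orbitSum (cosetPerm T) (fun y => w (genU • y)) x n
        = ∑ i ∈ Finset.range n, (B (T ^ (i + 1) • x) - B (T ^ i • x)) :=
      Finset.sum_congr rfl fun i _ => by
        simp only []
        rw [cosetPerm_pow_apply, ← hwB, pow_succ', mul_smul]
    rw [this, Finset.sum_range_sub (fun i => B (T ^ i • x)), hn, pow_zero, one_smul, sub_self]
  let w' : closedCochains Γ R := ⟨w, hw, hwf⟩
  refine ⟨symbolHom Γ R w', fun φ => ?_⟩
  obtain ⟨u, rfl⟩ := symbolHom_surjective φ
  obtain ⟨κ, hκ, hκS⟩ := exists_cocycle_symbolHom u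
  obtain ⟨ν, hν, hνS⟩ := exists_cocycle_symbolHom w'
  obtain ⟨b, hb⟩ := hν.exists_b
  rw [pairing_eq_symbolPairing _ _ hκ hν hb (B := B) fun x => by rw [hν.T_apply, hνS, hwB]]
  have hL : L (symbolHom Γ R u) = ∑ y, u.1 y * c' y := by
    rw [← hL']; simp only [L', LinearMap.comp_apply, hπ]
  rw [hL]
  show ∑ y, κ S y * (b y + B (genU⁻¹ • y)) = _
  rw [← sub_eq_zero, ← Finset.sum_sub_distrib]
  simp only [hκS, ← mul_sub]
  set E : (SL(2, ℤ) ⧸ Γ) → R := fun y => b y + B (genU⁻¹ • y) - c' y with hE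
  have hES : ∀ y, E (S • y) = E y := fun y => by
    have h1 := hb y
    rw [hνS] at h1
    have h2 := hcS y
    simp only [hE, w', w] at h1 ⊢
    simp only [c] at hB' h2 ⊢
    linear_combination -h1 + hB' (S • y) + h2
  have h2 : (∑ y, u.1 y * E y) = -∑ y, u.1 y * E y := by
    conv_lhs => rw [← Equiv.sum_comp (cosetPerm S) (fun y => u.1 y * E y)]
    simp only [cosetPerm, MulAction.toPerm_apply, hES, u.2.1, neg_mul, Finset.sum_neg_distrib]
  have : 2 • (∑ y, u.1 y * E y) = 0 := by rw [two_nsmul]; linear_combination h2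
  exact (nsmul_eq_zero_iff_right two_ne_zero).mp this

instance finite_parabolicHoms : Module.Finite R (parabolicHoms R Γ R) :=
  Module.Finite.of_surjective (symbolHom Γ R) symbolHom_surjective

instance free_parabolicHoms : Module.Free R (parabolicHoms R Γ R) := by
  haveI : Module.IsTorsionFree R (parabolicHoms R Γ R) := by
    refine Module.IsTorsionFree.of_smul_eq_zero fun c φ h => ?_
    by_cases hc : c = 0
    · exact Or.inl hc
    refine Or.inr (Subtype.ext (AddMonoidHom.ext fun γ => ?_))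
    have := congrArg (fun ψ : parabolicHoms R Γ R => (ψ : Additive Γ →+ R) γ) h
    simp only [Submodule.coe_smul, AddMonoidHom.smul_apply, smul_eq_mul, Submodule.coe_zero,
      AddMonoidHom.zero_apply, mul_eq_zero] at this
    exact this.resolve_left hc
  exact Module.free_of_finite_type_torsion_free'

/-- The pairing is perfect. -/
theorem pairing_bijective : Function.Bijective (pairing Γ R) := by
  have hsurj : Function.Surjective (pairing Γ R) := fun L => by
    obtain ⟨ψ, hψ⟩ := pairing_surjective (-L)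
    refine ⟨ψ, LinearMap.ext fun φ => ?_⟩
    rw [pairing_skew, hψ, LinearMap.neg_apply, neg_neg]
  refine ⟨?_, hsurj⟩
  let e := (Module.Free.chooseBasis R (parabolicHoms R Γ R)).toDualEquiv
  have : Function.Injective (e.symm.toLinearMap ∘ₗ pairing Γ R) :=
    OrzechProperty.injective_of_surjective_endomorphism _ (e.symm.surjective.comp hsurj)
  exact fun a b h => this (congrArg e.symm h)

theorem pairing_eq_zero_iff (φ : parabolicHoms R Γ R) :
    (∀ ψ, pairing Γ R φ ψ = 0) ↔ φ = 0 :=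
  ⟨fun h => pairing_bijective.1 (by rw [map_zero]; exact LinearMap.ext h), fun h ψ => by simp [h]⟩

/-- Nondegeneracy modulo `d`. -/
theorem exists_eq_smul_of_forall_dvd {d : R} (hd : d ≠ 0) (φ : parabolicHoms R Γ R)
    (h : ∀ ψ, d ∣ pairing Γ R φ ψ) : ∃ φ', φ = d • φ' := by
  choose q hq using h
  let L : parabolicHoms R Γ R →ₗ[R] R :=
    { toFun := q
      map_add' := fun a b => mul_left_cancel₀ hd (by rw [mul_add, ← hq, ← hq, ← hq, map_add])
      map_smul' := fun c a => mul_left_cancel₀ hd (by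
        rw [RingHom.id_apply, smul_eq_mul, ← hq, map_smul, smul_eq_mul, hq]; ring) }
  obtain ⟨φ', hφ'⟩ := pairing_bijective.2 L
  refine ⟨φ', pairing_bijective.1 (LinearMap.ext fun ψ => ?_)⟩
  rw [map_smul, hφ', hq, LinearMap.smul_apply, smul_eq_mul]
  rfl

end Fermat.Agent.Pairing
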